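import Fermat.Agent.Poincare.Series
import Mathlib.Analysis.Normed.Ring.Finite
import Mathlib.GroupTheory.OrderOfElement

/-!
# Forms with a prescribed multiplier

Poincaré series give cusp forms with a prescribed unitary multiplier, trivial on `-1`, in all large
even weights, nonvanishing at a given point with trivial stabiliser.
-/

set_option autoImplicit false

noncomputable section

open Complex UpperHalfPlane Filter
open scoped MatrixGroups ModularForm Manifold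

namespace Fermat.Agent.Poincare

variable (Γ : Subgroup SL(2, ℤ)) (χ : Γ →* ℂˣ)

/-- The coefficient function `χ⁻¹` on `Γ`, extended by zero. -/
def charCoeff (g : SL(2, ℤ)) : ℂ :=
  open scoped Classical in if h : g ∈ Γ then (((χ ⟨g, h⟩)⁻¹ : ℂˣ) : ℂ) else 0

variable {Γ χ}

lemma norm_charCoeff_le (hχ : ∀ g, ‖(χ g : ℂ)‖ = 1) (g : SL(2, ℤ)) : ‖charCoeff Γ χ g‖ ≤ 1 := by
  unfold charCoeff
  split
  · simp [hχ]
  · simp

lemma charCoeff_mul_inv (h : Γ) (g : SL(2, ℤ)) :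
    charCoeff Γ χ (g * (h : SL(2, ℤ))⁻¹) = (χ h : ℂ) * charCoeff Γ χ g := by
  unfold charCoeff
  by_cases hg : g ∈ Γ
  · have hg' : g * (h : SL(2, ℤ))⁻¹ ∈ Γ := Γ.mul_mem hg (Γ.inv_mem h.2)
    rw [dif_pos hg, dif_pos hg']
    have : (⟨g * (h : SL(2, ℤ))⁻¹, hg'⟩ : Γ) = ⟨g, hg⟩ * h⁻¹ := rfl
    rw [this, map_mul, map_inv, mul_inv, inv_inv]
    push_cast
    ring
  · have hg' : g * (h : SL(2, ℤ))⁻¹ ∉ Γ := fun hc ↦ hg (by simpa using Γ.mul_mem hc h.2)
    rw [dif_neg hg, dif_neg hg', mul_zero]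

theorem poincare_charCoeff_slash (k : ℕ) (w : ℍ) (h : Γ) :
    poincare k w (charCoeff Γ χ) ∣[(k : ℤ)] (h : SL(2, ℤ))
      = (χ h : ℂ) • poincare k w (charCoeff Γ χ) := by
  ext τ
  rw [poincare_slash, poincare, Pi.smul_apply, smul_eq_mul, poincare, ← tsum_mul_left]
  exact tsum_congr fun g ↦ by rw [charCoeff_mul_inv, mul_assoc]

/-- For a subgroup `Γ` containing `-1` and a unitary character `χ` of it which is trivial on `-1`,
all sufficiently large even weights carry a cusp form of multiplier `χ` which does not vanish at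
a given point `w` with trivial stabiliser. -/
theorem eventually_exists_form (w : ℍ) (hw : ∀ g : SL(2, ℤ), g • w = w → g = 1 ∨ g = -1)
    (hneg : (-1 : SL(2, ℤ)) ∈ Γ) (hχ : ∀ g, ‖(χ g : ℂ)‖ = 1) (hχneg : χ ⟨-1, hneg⟩ = 1) :
    ∀ᶠ k : ℕ in atTop, ∃ P : ℍ → ℂ, P w ≠ 0 ∧ MDiff P ∧
      (∀ h : Γ, P ∣[((2 * k : ℕ) : ℤ)] (h : SL(2, ℤ)) = (χ h : ℂ) • P) ∧
      ∀ g : SL(2, ℤ), IsZeroAtImInfty (P ∣[((2 * k : ℕ) : ℤ)] g) := by
  have hlim := tendsto_poincare_self w hw (norm_charCoeff_le hχ)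
  have h2 : charCoeff Γ χ 1 + charCoeff Γ χ (-1) = 2 := by
    unfold charCoeff
    rw [dif_pos Γ.one_mem, dif_pos hneg, hχneg,
      show (⟨1, Γ.one_mem⟩ : Γ) = 1 from rfl, map_one]
    norm_num
  rw [h2] at hlim
  filter_upwards [hlim.eventually_ne (two_ne_zero), eventually_ge_atTop 5] with k hne hk
  exact ⟨_, hne, mdifferentiable_poincare (by omega) w (norm_charCoeff_le hχ),
    poincare_charCoeff_slash _ w,
    isZeroAtImInfty_poincare_slash (by omega) w (norm_charCoeff_le hχ)⟩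

lemma norm_eq_one_of_finite_range (hfin : (Set.range χ).Finite) (g : Γ) : ‖(χ g : ℂ)‖ = 1 := by
  have : Finite χ.range := hfin.to_subtype
  exact (((Units.coeHom ℂ).comp χ.range.subtype).isOfFinOrder
    (isOfFinOrder_of_finite (⟨χ g, g, rfl⟩ : χ.range))).norm_eq_one

/-- Variant: weight `12 r`, finite image, base point `2i`. -/
theorem exists_form_twelve (hneg : (-1 : SL(2, ℤ)) ∈ Γ) (hfin : (Set.range χ).Finite)
    (hχneg : χ ⟨-1, hneg⟩ = 1) (r₀ : ℕ) :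
    ∃ r, r₀ ≤ r ∧ ∃ P : ℍ → ℂ, P basePoint ≠ 0 ∧ MDiff P ∧
      (∀ h : Γ, P ∣[(12 * r : ℤ)] (h : SL(2, ℤ)) = (χ h : ℂ) • P) ∧
      ∀ g : SL(2, ℤ), IsZeroAtImInfty (P ∣[(12 * r : ℤ)] g) := by
  obtain ⟨K, hK⟩ := eventually_atTop.mp (eventually_exists_form basePoint stab_basePoint hneg
    (norm_eq_one_of_finite_range hfin) hχneg)
  refine ⟨max r₀ K, le_max_left _ _, ?_⟩
  obtain ⟨P, h⟩ := hK (6 * max r₀ K) (by have := le_max_right r₀ K; omega)
  rw [show (((2 * (6 * max r₀ K) : ℕ)) : ℤ) = 12 * (max r₀ K : ℕ) by push_cast; ring] at h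
  exact ⟨P, h⟩

end Fermat.Agent.Poincare
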