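import Fermat.Agent.Poincare.Dimension
import Fermat.Agent.Gamma0.Cusps
import Fermat.Prelude.Def_ModularCurve_GenusNumerics

/-!
# Cusp forms for `Γ₀(N)` as vector valued forms

`finrank_cuspForm_two`: the dimension of the weight two cusp forms for `Γ₀(N)` is the genus
formula of `X₀(N)`; it is the statement behind `S20`. The proof, without Riemann–Roch:

1. Weight two cusp forms for `Γ₀(N)` are the vector valued cusp forms on `X = SL(2, ℤ) / Γ₀(N)`
   (`cuspFormEquiv`).
2. Poincaré series separate the components of vector valued forms (`Poincare/Series`,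
   `Poincare/Multiplier`, `Poincare/Separation`), which makes those forms free of rank `|X|` over
   the level one forms (`Poincare/Basis`, `Poincare/VForm`).
3. The weights of a basis are determined by their sum and a duality, which gives the dimension in
   terms of `|X|`, the fixed points of `S` and `S T`, and the `T`-orbits (`Poincare/WeightSum`,
   `Poincare/Dimension`).
4. The `T`-orbits on `X` are the cusps (`card_cuspSet`), and `Gamma0/Cusps` counts all four.

## References

* C. Marks and G. Mason, *Structure of the module of vector-valued modular forms* (2010).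
* G. Shimura, *Introduction to the Arithmetic Theory of Automorphic Functions*, §1.6.
-/

set_option autoImplicit false

noncomputable section

open UpperHalfPlane hiding I
open Filter CongruenceSubgroup
open scoped MatrixGroups ModularForm

namespace Fermat.Agent.Poincare

variable (N : ℕ)

/-! ## The coset space -/

/-- The coset space of `Γ₀(N)`. -/
abbrev CosetSpace : Type := SL(2, ℤ) ⧸ Gamma0 N

/-- `-1` acts trivially on the coset space. -/
lemma neg_one_smul_coset (x : CosetSpace N) : (-1 : SL(2, ℤ)) • x = x := by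
  induction x using QuotientGroup.induction_on with | _ g => ?_
  rw [MulAction.Quotient.smul_coe, smul_eq_mul, QuotientGroup.eq,
    show ((-1 : SL(2, ℤ)) * g)⁻¹ * g = -1 by simp [inv_neg]]
  exact Gamma0.neg_one_mem_Gamma0 N

variable {N}

/-! ## Cusp forms as vector valued forms: step 1 -/

/-- Cusp forms are invariant under `Γ₀(N)`. -/
lemma slash_eq_self_of_mem (f : CuspForm (Gamma0 N) 2) {γ : SL(2, ℤ)} (h : γ ∈ Gamma0 N) :
    (⇑f) ∣[(2 : ℤ)] γ = ⇑f :=
  SlashInvariantForm.slash_action_eqn f _ ⟨γ, h, rfl⟩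

/-- The vector valued form of a cusp form. -/
def cosetForm (f : CuspForm (Gamma0 N) 2) (x : CosetSpace N) : ℍ → ℂ :=
  Quotient.liftOn' x (fun g ↦ (⇑f) ∣[(2 : ℤ)] g⁻¹) fun a b hab ↦ by
    rw [QuotientGroup.leftRel_apply] at hab
    show (⇑f) ∣[(2 : ℤ)] a⁻¹ = (⇑f) ∣[(2 : ℤ)] b⁻¹
    conv_lhs => rw [show a⁻¹ = (a⁻¹ * b) * b⁻¹ by group, SlashAction.slash_mul,
      slash_eq_self_of_mem f hab]

/-- The component at the coset of `g`. -/
lemma cosetForm_mk (f : CuspForm (Gamma0 N) 2) (g : SL(2, ℤ)) :
    cosetForm f (g : CosetSpace N) = (⇑f) ∣[(2 : ℤ)] g⁻¹ := rfl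

/-- The vector valued form of a cusp form is a cusp form. -/
lemma isVForm_cosetForm [NeZero N] (f : CuspForm (Gamma0 N) 2) :
    IsVForm true 2 (cosetForm f) := by
  refine ⟨fun x ↦ ?_, fun h x ↦ ?_, fun x ↦ ?_⟩
  · induction x using QuotientGroup.induction_on with | _ g => ?_
    rw [cosetForm_mk]
    exact (CuspFormClass.holo f).slash _ _
  · induction x using QuotientGroup.induction_on with | _ g => ?_
    rw [MulAction.Quotient.smul_coe, smul_eq_mul, cosetForm_mk, cosetForm_mk, mul_inv_rev, inv_inv,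
      SlashAction.slash_mul]
  · induction x using QuotientGroup.induction_on with | _ g => ?_
    rw [cosetForm_mk]
    exact CuspFormClass.zero_at_infty_slash f g⁻¹

/-- A component of a vector valued cusp form vanishes at every cusp. -/
lemma cusp_zero_of_isVForm {F : CosetSpace N → ℍ → ℂ} (hF : IsVForm true 2 F)
    (g : SL(2, ℤ)) : IsZeroAtImInfty (F ((1 : SL(2, ℤ)) : CosetSpace N) ∣[(2 : ℤ)] g) := by
  rw [hF.slash]; exact hF.growth _

/-- The cusp form of a vector valued form. -/
def ofVForm [NeZero N] {F : CosetSpace N → ℍ → ℂ} (hF : IsVForm true 2 F) :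
    CuspForm (Gamma0 N) 2 where
  toFun := F ((1 : SL(2, ℤ)) : CosetSpace N)
  slash_action_eq' := by
    rintro _ ⟨γ, hγ, rfl⟩
    show F _ ∣[(2 : ℤ)] γ = _
    rw [hF.slash, MulAction.Quotient.smul_coe, smul_eq_mul, mul_one]
    congr 1
    exact QuotientGroup.eq.mpr (by simpa using hγ)
  holo' := hF.holo _
  zero_at_cusps' {c} hc := by
    rw [Subgroup.IsArithmetic.isCusp_iff_isCusp_SL2Z] at hc
    rw [OnePoint.isZeroAt_iff_forall_SL2Z hc]
    exact fun γ _ ↦ cusp_zero_of_isVForm hF γ

variable (N)

/-- Weight two cusp forms for `Γ₀(N)` are the vector valued forms on the coset space. -/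
def cuspFormEquiv [NeZero N] :
    CuspForm (Gamma0 N) 2 ≃ₗ[ℂ] vSpace (CosetSpace N) true 2 where
  toFun f := ⟨cosetForm f, isVForm_cosetForm f⟩
  map_add' f g := Subtype.ext (funext fun x ↦ by
    induction x using QuotientGroup.induction_on with | _ a => ?_
    show (⇑(f + g)) ∣[(2 : ℤ)] a⁻¹ = (⇑f) ∣[(2 : ℤ)] a⁻¹ + (⇑g) ∣[(2 : ℤ)] a⁻¹
    rw [FunLike.coe_add, SlashAction.add_slash])
  map_smul' c f := Subtype.ext (funext fun x ↦ by
    induction x using QuotientGroup.induction_on with | _ a => ?_
    show (⇑(c • f)) ∣[(2 : ℤ)] a⁻¹ = c • ((⇑f) ∣[(2 : ℤ)] a⁻¹)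
    rw [FunLike.coe_smul, ModularForm.SL_smul_slash])
  invFun F := ofVForm F.2
  left_inv f := DFunLike.ext' (by
    show (⇑f) ∣[(2 : ℤ)] (1 : SL(2, ℤ))⁻¹ = ⇑f
    rw [inv_one, SlashAction.slash_one])
  right_inv F := Subtype.ext (funext fun x ↦ by
    induction x using QuotientGroup.induction_on with | _ a => ?_
    show (F : CosetSpace N → ℍ → ℂ) ((1 : SL(2, ℤ)) : CosetSpace N) ∣[(2 : ℤ)] a⁻¹ = _
    rw [(F.2 : IsVForm true 2 _).slash, inv_inv, MulAction.Quotient.smul_coe, smul_eq_mul, mul_one])

/-! ## Cusps: step 4 -/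

/-- Iterating the shift is a power of `T`. -/
lemma shift_iterate (j : ℕ) (x : CosetSpace N) :
    (shift : CosetSpace N → CosetSpace N)^[j] x = ModularGroup.T ^ (-(j : ℤ)) • x := by
  rw [zpow_neg, zpow_natCast, ← inv_pow]
  exact smul_iterate_apply _ j x

/-- The `T`-orbits are those of the subgroup generated by `T`. -/
lemma cuspSetoid_iff [Fintype (CosetSpace N)] (x y : CosetSpace N) :
    (cuspSetoid (CosetSpace N)).r x y ↔ ∃ k : ℤ, ModularGroup.T ^ k • x = y := by
  constructor
  · rintro ⟨j, rfl⟩
    exact ⟨_, (shift_iterate N j x).symm⟩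
  · rintro ⟨k, rfl⟩
    set w := cuspWidth x
    have hw : ModularGroup.T ^ (-(w : ℤ)) ∈ MulAction.stabilizer SL(2, ℤ) x := by
      rw [MulAction.mem_stabilizer_iff, ← shift_iterate]
      exact Function.iterate_minimalPeriod
    have hpos : (w : ℤ) ≠ 0 := by
      have := cuspWidth_pos x
      exact_mod_cast this.ne'
    refine ⟨((-k) % w).toNat, ?_⟩
    rw [shift_iterate, Int.toNat_of_nonneg (Int.emod_nonneg _ hpos), Int.emod_def]
    have hk := Subgroup.zpow_mem _ hw (-((-k) / w))
    rw [MulAction.mem_stabilizer_iff, ← zpow_mul] at hk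
    conv_rhs => rw [← hk, ← mul_smul, ← zpow_add]
    congr 2
    ring

/-- The `T`-orbits on the coset space are the cusps of `Γ₀(N)`. -/
lemma card_cuspSet [NeZero N] [Fintype (CosetSpace N)] :
    Fintype.card (CuspSet (CosetSpace N)) = ModularCurve.cuspCount N := by
  classical
  rw [← Gamma0.natCard_cusps N, ← Nat.card_eq_fintype_card]
  refine Nat.card_congr ((Quotient.congrRight fun x y ↦ ?_) :
    Quotient (cuspSetoid (CosetSpace N)) ≃ Gamma0.Cusp N)
  rw [show cuspSetoid (CosetSpace N) x y ↔ _ from cuspSetoid_iff N x y, ← Gamma0.cusp_mk_eq_iff]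
  exact Quotient.eq''

/-! ## The dimension -/

/-- `dim S₂(Γ₀(N))` is given by the genus formula of `X₀(N)`. -/
theorem finrank_cuspForm_two [NeZero N] :
    (Module.finrank ℂ (CuspForm (Gamma0 N) 2) : ℚ) = ModularCurve.genusFormula N := by
  classical
  have : Finite (CosetSpace N) := Subgroup.finite_quotient_of_finiteIndex
  have : Fintype (CosetSpace N) := Fintype.ofFinite _
  -- Steps 2 and 3 for the coset space, then steps 1 and 4.
  have h := FormBasis.finrank_two_eq (X := CosetSpace N) (neg_one_smul_coset N)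
  rw [← (cuspFormEquiv N).finrank_eq, card_cuspSet] at h
  have h1 : Fintype.card (CosetSpace N) = ModularCurve.dedekindPsi N := by
    rw [← Nat.card_eq_fintype_card]; exact Gamma0.natCard_quotient N
  have h2 : Nat.card {x : CosetSpace N // ModularGroup.S • x = x} = ModularCurve.nuTwo N := by
    rw [← Gamma0.natCard_fixedBy_S N]; rfl
  have h3 : Nat.card {x : CosetSpace N // (ModularGroup.S * ModularGroup.T) • x = x}
      = ModularCurve.nuThree N := by
    rw [← Gamma0.natCard_fixedBy_ST N]; rfl
  rw [h1, h2, h3] at h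
  have h' := congrArg (fun z : ℤ ↦ (z : ℚ)) h
  push_cast at h'
  rw [ModularCurve.genusFormula]
  linarith

end Fermat.Agent.Poincare
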