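import Fermat.Agent.Poincare.Series
import Fermat.Agent.Poincare.VForm
import Fermat.Agent.Genus.JFunction
import Mathlib.Analysis.Complex.Polynomial.Basic

/-!
# Level one facts

Separation of `SL(2, ℤ)`-orbits by `j`, point forms, stabilisers.
-/

set_option autoImplicit false

noncomputable section

open UpperHalfPlane hiding I
open Filter Topology Complex EisensteinSeries
open scoped MatrixGroups ComplexConjugate

namespace Fermat.Agent.Poincare

open Derivative ModularForm in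
lemma isLevelOne_E₄ : IsLevelOne 4 (⇑E₄ : ℍ → ℂ) := IsLevelOne.of_modularForm E₄

open Derivative ModularForm in
lemma isLevelOne_E₆ : IsLevelOne 6 (⇑E₆ : ℍ → ℂ) := IsLevelOne.of_modularForm E₆

open ModularForm

local notation "Δ" => ModularForm.discriminant

/-- The discriminant is a form of level one and weight twelve. -/
lemma isLevelOne_discriminant : IsLevelOne 12 (Δ : ℍ → ℂ) :=
  ⟨ModFun.mdifferentiable_discriminant,
    fun γ ↦ SlashInvariantForm.slash_action_eqn CuspForm.discriminant _ ⟨γ, rfl⟩,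
    Filter.ZeroAtFilter.boundedAtFilter discriminant_isZeroAtImInfty⟩

lemma tendsto_E₄ : Tendsto (⇑E₄) atImInfty (𝓝 1) :=
  Genus.tendsto_E (k := 4) (by norm_num) ⟨2, rfl⟩

lemma tendsto_E₆ : Tendsto (⇑E₆) atImInfty (𝓝 1) :=
  Genus.tendsto_E (k := 6) (by norm_num) ⟨3, rfl⟩

lemma discriminant_identity (τ : ℍ) : 1728 * Δ τ = E₄ τ ^ 3 - E₆ τ ^ 2 := by
  rw [discriminant_eq_E₄_cube_sub_E₆_sq]; ring

/-- Exponents `(a, b)` with `4 a + 6 b = 2 n`. -/
lemma exists_exponents {n : ℕ} (hn : n ≠ 1) : ∃ a b : ℕ, 4 * a + 6 * b = 2 * n :=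
  if h : Even n then ⟨n / 2, 0, by obtain ⟨r, rfl⟩ := h; omega⟩
  else ⟨(n - 3) / 2, 1, by rw [Nat.not_even_iff] at h; omega⟩

/-- `E₄ ^ a E₆ ^ b` is a form of weight `4 a + 6 b`. -/
lemma isLevelOne_monomial (a b : ℕ) :
    IsLevelOne (4 * a + 6 * b : ℕ) ((⇑E₄ : ℍ → ℂ) ^ a * (⇑E₆ : ℍ → ℂ) ^ b) := by
  have := (isLevelOne_E₄.pow a).mul (isLevelOne_E₆.pow b)
  convert this using 1
  push_cast; ring

lemma tendsto_monomial (a b : ℕ) :
    Tendsto ((⇑E₄ : ℍ → ℂ) ^ a * (⇑E₆ : ℍ → ℂ) ^ b) atImInfty (𝓝 1) := by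
  have := (tendsto_E₄.pow a).mul (tendsto_E₆.pow b)
  simp only [one_pow, mul_one] at this
  exact this

lemma IsLevelOne.periodic {k : ℤ} {f : ℍ → ℂ} (hf : IsLevelOne k f) :
    Function.Periodic (f ∘ ofComplex) (1 : ℝ) :=
  SlashInvariantFormClass.periodic_comp_ofComplex hf.toModularForm one_mem_strictPeriods_SL

lemma IsLevelOne.exists_tendsto {k : ℤ} {f : ℍ → ℂ} (hf : IsLevelOne k f) :
    ∃ c, Tendsto f atImInfty (𝓝 c) :=
  ⟨_, Genus.tendsto_coeff_zero hf.periodic hf.holo hf.bdd⟩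

lemma IsLevelOne.sub {k : ℤ} {f g : ℍ → ℂ} (hf : IsLevelOne k f) (hg : IsLevelOne k g) :
    IsLevelOne k (f - g) :=
  IsLevelOne.of_modularForm (hf.toModularForm - hg.toModularForm)

/-- A level one form vanishing at `i∞` as a bundled cusp form. -/
def IsLevelOne.toCuspForm {k : ℤ} {f : ℍ → ℂ} (hf : IsLevelOne k f) (h0 : IsZeroAtImInfty f) :
    CuspForm 𝒮ℒ k where
  toFun := f
  slash_action_eq' := fun _ ⟨γ, hγ⟩ ↦ hγ ▸ hf.slash γ
  holo' := hf.holo
  zero_at_cusps' {c} hc := by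
    rw [Subgroup.IsArithmetic.isCusp_iff_isCusp_SL2Z] at hc
    rw [OnePoint.isZeroAt_iff_forall_SL2Z hc]
    intro γ _
    rw [hf.slash γ]
    exact h0

/-- A cusp form of level one and weight `k` is the discriminant times a form of weight `k - 12`. -/
lemma IsLevelOne.exists_eq_discriminant_mul {k : ℤ} {f : ℍ → ℂ} (hf : IsLevelOne k f)
    (h0 : IsZeroAtImInfty f) : ∃ g, IsLevelOne (k - 12) g ∧ f = Δ * g :=
  ⟨_, IsLevelOne.of_modularForm (CuspForm.discriminantEquiv (hf.toCuspForm h0)),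
    funext fun z ↦ (ModularForm.discriminant_mul_discriminantEquiv_apply (hf.toCuspForm h0) z).symm⟩

/-- Level one forms of even weight cannot distinguish weighted homothetic values of `(E₄, E₆)`. -/
lemma IsLevelOne.apply_of_homothety {τ₀ τ₁ : ℍ} {l : ℂ} (h4 : E₄ τ₁ = l ^ 4 * E₄ τ₀)
    (h6 : E₆ τ₁ = l ^ 6 * E₆ τ₀) :
    ∀ (n : ℕ) {f : ℍ → ℂ}, IsLevelOne (2 * n : ℕ) f → f τ₁ = l ^ (2 * n) * f τ₀ := by
  intro n
  induction n using Nat.strong_induction_on with
  | _ n ih =>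
  intro f hf
  rcases Nat.eq_zero_or_pos n with rfl | hn
  · obtain ⟨c, hc⟩ := ModularFormClass.levelOne_weight_zero_const
      (show ModularForm 𝒮ℒ 0 by simpa using hf.toModularForm)
    have hc' : f = Function.const _ c := hc
    simp [hc']
  obtain ⟨c, hc⟩ := hf.exists_tendsto
  rcases eq_or_ne n 1 with rfl | hn1
  · have h2 := rank_zero_iff_forall_zero.mp levelOne_weight_two_rank_zero
      (show ModularForm 𝒮ℒ 2 from hf.toModularForm)
    have : f = 0 := congrArg DFunLike.coe h2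
    simp [this]
  obtain ⟨a, b, hab⟩ := exists_exponents hn1
  set m := (⇑E₄ : ℍ → ℂ) ^ a * (⇑E₆ : ℍ → ℂ) ^ b with hm
  have hmf : IsLevelOne (2 * n : ℕ) m := hab ▸ isLevelOne_monomial a b
  have hg : IsLevelOne (2 * n : ℕ) (f - c • m) := hf.sub (hmf.smul c)
  have hg0 : IsZeroAtImInfty (f - c • m) := by
    have := hc.sub ((tendsto_monomial a b).const_smul c)
    simp only [smul_eq_mul, mul_one, sub_self] at this
    exact this
  have hm1 : m τ₁ = l ^ (2 * n) * m τ₀ := by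
    simp only [hm, Pi.mul_apply, Pi.pow_apply, h4, h6, ← hab]
    ring
  obtain ⟨g, hgl, hge⟩ := hg.exists_eq_discriminant_mul hg0
  have key : (f - c • m) τ₁ = l ^ (2 * n) * (f - c • m) τ₀ := by
    rw [hge]
    rcases lt_or_ge n 6 with h | h
    · simp [hgl.eq_zero_of_neg (by omega)]
    · have e : ((2 * n : ℕ) : ℤ) - 12 = (2 * (n - 6) : ℕ) := by omega
      rw [e] at hgl
      have hD : Δ τ₁ = l ^ 12 * Δ τ₀ := mul_left_cancel₀ (by norm_num : (1728 : ℂ) ≠ 0) (by
        rw [mul_left_comm, discriminant_identity, discriminant_identity, h4, h6]; ring)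
      rw [Pi.mul_apply, Pi.mul_apply, hD, ih (n - 6) (by omega) hgl,
        show 2 * n = 12 + 2 * (n - 6) by omega, pow_add]
      ring
  simp only [Pi.sub_apply, Pi.smul_apply, smul_eq_mul] at key
  linear_combination key + c * hm1

/-- Every element of a stabiliser has automorphy factor of order dividing `12`. -/
lemma denom_pow_twelve_of_stab {w : ℍ} {g : SL(2, ℤ)} (hg : g • w = w) :
    denom g (w : ℂ) ^ 12 = 1 := by
  by_cases h4 : E₄ w = 0
  · have h6 : E₆ w ≠ 0 := fun h ↦ Genus.not_E₄_E₆_eq_zero w ⟨h4, h⟩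
    have h := isLevelOne_E₆.apply_smul g w
    rw [hg, zpow_ofNat] at h
    rw [pow_mul _ 6 2, mul_left_cancel₀ h6 (h.symm.trans (mul_one _).symm), one_pow]
  · have h := isLevelOne_E₄.apply_smul g w
    rw [hg, zpow_ofNat] at h
    rw [pow_mul _ 4 3, mul_left_cancel₀ h4 (h.symm.trans (mul_one _).symm), one_pow]

lemma finite_stab (w : ℍ) : {g : SL(2, ℤ) | g • w = w}.Finite := by
  set B := (2 * w.im * formConst w / r w) ^ 8
  have h1 : ∀ g ∈ {g : SL(2, ℤ) | g • w = w}, 1 ≤ B * majorant g := by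
    intro g hg
    refine le_trans (le_of_eq ?_) (majorant_bound le_rfl (r_pos w)).1
    have hn : normSq (rowForm g w 0 - (w : ℂ) * rowForm g w 1) = 0 := by
      have h := congrArg (fun z : ℍ ↦ (z : ℂ)) (hg : g • w = w)
      simp only [coe_smul_eq_rowForm] at h
      rw [div_eq_iff (rowForm_one_ne_zero g w)] at h
      rw [h, sub_self, map_zero]
    have := normSq_pairForm w g w
    rw [hn, zero_add] at this
    rw [Complex.norm_def, this, show (4 : ℝ) * w.im * w.im = (2 * w.im) ^ 2 by ring,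
      Real.sqrt_sq (by positivity), div_self (by positivity), one_pow]
  have := ((summable_majorant.mul_left B).tendsto_cofinite_zero).eventually (gt_mem_nhds one_pos)
  rw [Filter.eventually_cofinite] at this
  exact this.subset fun g hg ↦ not_lt.mpr (h1 g hg)

/-- In weights `12 m`, the series seeded at `w` tends to the order of the stabiliser at `w`. -/
lemma tendsto_poincare_twelve_self (w : ℍ) :
    Tendsto (fun m : ℕ ↦ poincare (12 * m) w 1 w) atTop
      (𝓝 ((finite_stab w).toFinset.card : ℂ)) := by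
  classical
  have hlim : (∑' g : SL(2, ℤ), if g • w = w then (1 : ℂ) else 0)
      = (finite_stab w).toFinset.card := by
    rw [tsum_eq_sum (s := (finite_stab w).toFinset) (fun g hg ↦ if_neg (by simpa using hg))]
    rw [Finset.sum_congr rfl fun g hg ↦ if_pos (by simpa using hg)]
    simp
  rw [← hlim]
  refine tendsto_tsum_of_dominated_convergence
    (bound := fun g ↦ (2 * w.im * formConst w / r w) ^ 8 * majorant g)
    (summable_majorant.mul_left _) (fun g ↦ ?_) ?_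
  · split_ifs with hg
    · refine tendsto_const_nhds.congr fun m ↦ ?_
      have hv : (w : ℂ) - conj (w : ℂ) ≠ 0 := by
        rw [Complex.sub_conj]; simp [w.im_pos.ne']
      have hz := congrArg (fun z : ℍ ↦ (z : ℂ)) hg
      simp only [coe_smul_eq_rowForm] at hz
      rw [div_eq_iff (rowForm_one_ne_zero g w)] at hz
      have hd : rowForm g w 1 ^ 12 = 1 := by
        rw [← denom_eq_rowForm]; exact denom_pow_twelve_of_stab hg
      have hL : pairForm w g w = ((w : ℂ) - conj (w : ℂ)) * rowForm g w 1 := by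
        rw [pairForm, hz]; ring
      rw [Pi.one_apply, one_mul, poincareTerm, hL, ← div_div, div_self hv, pow_mul, one_div,
        inv_pow, hd]
      simp
    · have hlt : ‖((w : ℂ) - conj (w : ℂ)) / pairForm w g w‖ < 1 := by
        have := norm_poincareTerm 1 w g w
        rw [poincareTerm, pow_one, pow_one] at this
        rw [this]
        exact ratio_lt_one hg
      simpa [poincareTerm, Function.comp_def] using
        (tendsto_pow_atTop_nhds_zero_of_norm_lt_one hlt).comp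
          (tendsto_id.const_mul_atTop' (by norm_num : 0 < 12))
  · filter_upwards [eventually_ge_atTop 1] with m hm g
    rw [norm_mul, Pi.one_apply, norm_one, one_mul, norm_poincareTerm]
    exact (pow_le_pow_of_le_one (by have := w.im_pos; positivity) (ratio_le_one w g)
      (by omega : 8 ≤ 12 * m)).trans (majorant_bound le_rfl (r_pos w)).1

/-- The invariant size at `τ` of the series seeded at an inequivalent point tends to zero. -/
lemma tendsto_poincare_twelve_other {w τ : ℍ} (h : ∀ g : SL(2, ℤ), g • τ ≠ w) :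
    Tendsto (fun m : ℕ ↦ Real.sqrt (τ.im / w.im) ^ (12 * m) * ‖poincare (12 * m) w 1 τ‖) atTop
      (𝓝 0) := by
  set s := Real.sqrt (τ.im / w.im) with hs
  have hlt : ∀ g, s * (2 * w.im / ‖pairForm w g τ‖) < 1 := by
    intro g
    have hL : (0 : ℝ) < ‖pairForm w g τ‖ := norm_pos_iff.mpr (pairForm_ne_zero w g τ)
    rw [← mul_div_assoc, div_lt_one hL, Complex.norm_def]
    refine Real.lt_sqrt_of_sq_lt ?_
    rw [mul_pow, hs, Real.sq_sqrt (by positivity), normSq_pairForm]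
    have : 0 < normSq (rowForm g τ 0 - (w : ℂ) * rowForm g τ 1) := by
      rw [Complex.normSq_pos, sub_ne_zero]
      intro he
      refine h g (UpperHalfPlane.ext ?_)
      rw [coe_smul_eq_rowForm, he, mul_div_cancel_right₀ _ (rowForm_one_ne_zero g τ)]
    have e : τ.im / w.im * (2 * w.im) ^ 2 = 4 * w.im * τ.im := by field_simp; ring
    linarith
  have hterm : ∀ g, 0 ≤ s * (2 * w.im / ‖pairForm w g τ‖) := fun g ↦ by positivity
  have hz : Tendsto (fun m : ℕ ↦ ∑' g, (s * (2 * w.im / ‖pairForm w g τ‖)) ^ (12 * m)) atTop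
      (𝓝 0) := by
    rw [show (0 : ℝ) = ∑' _ : SL(2, ℤ), (0 : ℝ) from tsum_zero.symm]
    refine tendsto_tsum_of_dominated_convergence
      (bound := fun g ↦ s ^ 8 * ((2 * w.im * formConst w / r τ) ^ 8 * majorant g))
      ((summable_majorant.mul_left _).mul_left _) (fun g ↦ ?_) ?_
    · exact (tendsto_pow_atTop_nhds_zero_of_lt_one (hterm g) (hlt g)).comp
        (tendsto_id.const_mul_atTop' (by norm_num : 0 < 12))
    · filter_upwards [eventually_ge_atTop 1] with m hm g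
      rw [Real.norm_of_nonneg (pow_nonneg (hterm g) _)]
      refine (pow_le_pow_of_le_one (hterm g) (hlt g).le (by omega : 8 ≤ 12 * m)).trans ?_
      rw [mul_pow]
      exact mul_le_mul_of_nonneg_left (majorant_bound le_rfl (r_pos τ)).1 (by positivity)
  refine squeeze_zero' (Eventually.of_forall fun m ↦ by positivity) ?_ hz
  filter_upwards [eventually_ge_atTop 1] with m hm
  refine (mul_le_mul_of_nonneg_left
    (norm_poincare_le (by omega) w τ (a := 1) (C := 1) (by simp)) (by positivity)).trans ?_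
  rw [one_mul, absSum, ← tsum_mul_left]
  simp only [norm_poincareTerm, ← mul_pow, le_refl]

lemma isLevelOne_poincare {k : ℕ} (hk : 9 ≤ k) (w : ℍ) : IsLevelOne k (poincare k w 1) :=
  ⟨mdifferentiable_poincare (C := 1) (by omega) w (by simp),
    fun g ↦ by rw [poincare_slash]; rfl,
    Filter.ZeroAtFilter.boundedAtFilter (isZeroAtImInfty_poincare (C := 1) hk w (by simp))⟩

lemma scale_lt_one {τ₀ τ₁ : ℍ} {l : ℂ} (h4 : E₄ τ₁ = l ^ 4 * E₄ τ₀)
    (h6 : E₆ τ₁ = l ^ 6 * E₆ τ₀) (hne : ∀ g : SL(2, ℤ), g • τ₁ ≠ τ₀) :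
    Real.sqrt (τ₁.im / τ₀.im) * ‖l‖ < 1 := by
  by_contra hge
  rw [not_lt] at hge
  have h0 := tendsto_poincare_twelve_other hne
  have h1 := (tendsto_poincare_twelve_self τ₀).norm
  have hcard : (1 : ℝ) ≤ ‖((finite_stab τ₀).toFinset.card : ℂ)‖ := by
    rw [Complex.norm_natCast, Nat.one_le_cast]
    exact Finset.card_pos.mpr ⟨1, by simp⟩
  have he : ∀ᶠ m : ℕ in atTop, ‖poincare (12 * m) τ₀ 1 τ₀‖
      ≤ Real.sqrt (τ₁.im / τ₀.im) ^ (12 * m) * ‖poincare (12 * m) τ₀ 1 τ₁‖ := by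
    filter_upwards [eventually_ge_atTop 1] with m hm
    have := IsLevelOne.apply_of_homothety h4 h6 (6 * m) (f := poincare (12 * m) τ₀ 1)
      (by rw [show 2 * (6 * m) = 12 * m by ring]; exact isLevelOne_poincare (by omega) τ₀)
    rw [this, norm_mul, norm_pow, show 2 * (6 * m) = 12 * m by ring, ← mul_assoc, ← mul_pow]
    exact le_mul_of_one_le_left (norm_nonneg _) (one_le_pow₀ hge)
  have := le_of_tendsto_of_tendsto h1 h0 he
  linarith

/-- `j` separates the orbits of `SL(2, ℤ)`. -/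
theorem exists_smul_eq_of_jH_eq {τ₀ τ₁ : ℍ} (h : Genus.jH τ₀ = Genus.jH τ₁) :
    ∃ g : SL(2, ℤ), g • τ₀ = τ₁ := by
  by_contra hcon
  push Not at hcon
  have hne' : ∀ g : SL(2, ℤ), g • τ₁ ≠ τ₀ := fun g hg ↦ hcon g⁻¹ (by rw [← hg, inv_smul_smul])
  have hD₀ := discriminant_ne_zero τ₀
  have hD₁ := discriminant_ne_zero τ₁
  -- Pick `z` with `Δ τ₁ = z ^ 12 Δ τ₀`; as the `j` agree, `E₄ ^ 3` and `E₆ ^ 2` scale alike.
  obtain ⟨z, hz⟩ := IsAlgClosed.exists_pow_nat_eq (Δ τ₁ / Δ τ₀) (by norm_num : 0 < 12)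
  have hz0 : z ≠ 0 := fun e ↦ div_ne_zero hD₁ hD₀ (by rw [← hz, e]; simp)
  have hΔ : Δ τ₁ = z ^ 12 * Δ τ₀ := by rw [hz, div_mul_cancel₀ _ hD₀]
  have hc3 : E₄ τ₁ ^ 3 = (z ^ 4 * E₄ τ₀) ^ 3 := by
    have := h
    rw [Genus.jH, Genus.jH, div_eq_div_iff hD₀ hD₁, hΔ] at this
    exact mul_right_cancel₀ hD₀ (by linear_combination -this)
  have hc2 : E₆ τ₁ ^ 2 = (z ^ 6 * E₆ τ₀) ^ 2 := by
    linear_combination hc3 + discriminant_identity τ₁ - z ^ 12 * discriminant_identity τ₀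
      - (1728 : ℂ) * hΔ
  obtain ⟨ε, hε, hε3⟩ : ∃ ε : ℂ, E₄ τ₁ = ε * (z ^ 4 * E₄ τ₀) ∧ ε ^ 3 = 1 := by
    rcases eq_or_ne (E₄ τ₀) 0 with h0 | h0
    · refine ⟨1, ?_, one_pow 3⟩
      rw [h0] at hc3 ⊢
      simpa using hc3
    · have hb : z ^ 4 * E₄ τ₀ ≠ 0 := mul_ne_zero (pow_ne_zero _ hz0) h0
      refine ⟨E₄ τ₁ / (z ^ 4 * E₄ τ₀), (div_mul_cancel₀ _ hb).symm, ?_⟩
      rw [div_pow, hc3, div_self (pow_ne_zero _ hb)]
  -- Adjust by a twelfth root of unity, so `(E₄, E₆)` scale by `(l ^ 4, l ^ 6)`.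
  obtain ⟨t, ht, ht12, ht6⟩ : ∃ t : ℂ, t ^ 4 = ε ∧ t ^ 12 = 1 ∧
      E₆ τ₁ = t ^ 6 * (z ^ 6 * E₆ τ₀) := by
    rcases sq_eq_sq_iff_eq_or_eq_neg.mp hc2 with e | e
    · exact ⟨ε, by linear_combination ε * hε3, by rw [pow_mul _ 3 4, hε3, one_pow],
        by rw [pow_mul _ 3 2, hε3, one_pow, one_mul, e]⟩
    · refine ⟨Complex.I * ε, ?_, ?_, ?_⟩
      · rw [mul_pow, Complex.I_pow_four, one_mul]; linear_combination ε * hε3
      · rw [mul_pow, pow_mul Complex.I 4 3, Complex.I_pow_four, one_pow, one_mul, pow_mul _ 3 4,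
          hε3, one_pow]
      · rw [mul_pow, pow_mul _ 3 2, pow_mul ε 3 2, hε3, Complex.I_pow_three, e]; simp
  have h4 : E₄ τ₁ = (t * z) ^ 4 * E₄ τ₀ := by rw [hε, ← ht]; ring
  have h6 : E₆ τ₁ = (t * z) ^ 6 * E₆ τ₀ := by rw [ht6]; ring
  have ht0 : t ≠ 0 := fun e ↦ by simp [e] at ht12
  have hl : t * z ≠ 0 := mul_ne_zero ht0 hz0
  -- If the orbits differ both `|l|` and `|l|⁻¹` are less than ratios with product `1`.
  have A := scale_lt_one h4 h6 hne'
  have B := scale_lt_one (τ₀ := τ₁) (τ₁ := τ₀) (l := (t * z)⁻¹)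
    (by rw [h4]; field_simp) (by rw [h6]; field_simp) hcon
  rw [norm_inv] at B
  have e : Real.sqrt (τ₁.im / τ₀.im) * Real.sqrt (τ₀.im / τ₁.im) = 1 := by
    rw [← Real.sqrt_mul (by positivity)]; field_simp; simp
  have := mul_lt_mul'' A B (by positivity) (by positivity)
  rw [mul_mul_mul_comm, e, mul_inv_cancel₀ (norm_ne_zero_iff.mpr hl)] at this
  linarith

/-! ### Point forms -/

lemma orbit_of_apply_eq_zero {e : ℤ} {p : ℍ → ℂ} (hp : IsLevelOne e p) {τ₀ : ℍ} (h : p τ₀ = 0)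
    (g : SL(2, ℤ)) : p (g • τ₀) = 0 := by
  rw [hp.apply_smul, h, zero_mul]

lemma simpleZeros_E₄ : SimpleZeros (⇑E₄) := fun τ hτ ↦ by
  rw [Genus.deriv_comp_ofComplex, Genus.normalizedDeriv_E₄, hτ]
  have h6 : E₆ τ ≠ 0 := fun h6 ↦ Genus.not_E₄_E₆_eq_zero τ ⟨hτ, h6⟩
  simp [h6]

lemma simpleZeros_E₆ : SimpleZeros (⇑E₆) := fun τ hτ ↦ by
  rw [Genus.deriv_comp_ofComplex, Genus.normalizedDeriv_E₆, hτ]
  have h4 : E₄ τ ≠ 0 := fun h4 ↦ Genus.not_E₄_E₆_eq_zero τ ⟨h4, hτ⟩
  simp [h4]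

/-- A level one form with simple zeros exactly on one orbit, equal to `1` at `i∞`. -/
structure IsPointForm (τ₀ : ℍ) (e : ℤ) (p : ℍ → ℂ) : Prop where
  levelOne : IsLevelOne e p
  simple : SimpleZeros p
  tendsto : Tendsto p atImInfty (𝓝 1)
  zero : p τ₀ = 0
  orbit : ∀ τ, p τ = 0 → ∃ g : SL(2, ℤ), g • τ₀ = τ

lemma isPointForm_E₄ {τ₀ : ℍ} (h : E₄ τ₀ = 0) : IsPointForm τ₀ 4 (⇑E₄) :=
  ⟨isLevelOne_E₄, simpleZeros_E₄, tendsto_E₄, h,
    fun τ hτ ↦ exists_smul_eq_of_jH_eq (by simp [Genus.jH, h, hτ])⟩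

lemma isPointForm_E₆ {τ₀ : ℍ} (h : E₆ τ₀ = 0) : IsPointForm τ₀ 6 (⇑E₆) :=
  ⟨isLevelOne_E₆, simpleZeros_E₆, tendsto_E₆, h,
    fun τ hτ ↦ exists_smul_eq_of_jH_eq (sub_left_inj.mp
      (show Genus.jH τ₀ - 1728 = Genus.jH τ - 1728 by simp [Genus.jH_sub_1728, h, hτ]))⟩

lemma isPointForm_generic {τ₀ : ℍ} (h4 : E₄ τ₀ ≠ 0) (h6 : E₆ τ₀ ≠ 0) :
    IsPointForm τ₀ 12 ((⇑E₄ : ℍ → ℂ) ^ 3 - Genus.jH τ₀ • (Δ : ℍ → ℂ)) := by
  set a := Genus.jH τ₀ with ha
  set p := (⇑E₄ : ℍ → ℂ) ^ 3 - a • (Δ : ℍ → ℂ) with hp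
  have ha0 : a ≠ 0 := by
    rw [ha, Genus.jH]; exact div_ne_zero (pow_ne_zero 3 h4) (discriminant_ne_zero _)
  have ha1 : a ≠ 1728 := by
    intro e
    have := Genus.jH_sub_1728 τ₀
    rw [← ha, e, sub_self] at this
    exact div_ne_zero (pow_ne_zero 2 h6) (discriminant_ne_zero _) this.symm
  -- `p = Δ (j - a)`.
  have hpj : p = fun τ ↦ Δ τ * (Genus.jH τ - a) := by
    funext τ
    have := discriminant_ne_zero τ
    simp only [hp, Pi.sub_apply, Pi.pow_apply, Pi.smul_apply, smul_eq_mul, Genus.jH]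
    field_simp
  have hL : IsLevelOne 12 p := by
    have := (isLevelOne_E₄.pow 3).sub ((isLevelOne_discriminant.smul a))
    simpa using this
  refine ⟨hL, fun τ hτ ↦ ?_, ?_, ?_, fun τ hτ ↦ ?_⟩
  -- Its zeros are simple, as `deriv j ≠ 0` away from `0` and `1728`, and form one orbit.
  · have hj : Genus.jH τ = a := by
      rw [hpj] at hτ; simpa [sub_eq_zero, discriminant_ne_zero τ] using hτ
    have hne : deriv (Genus.jH ∘ ofComplex) (τ : ℂ) ≠ 0 := by
      rw [Genus.deriv_comp_ofComplex, Genus.normalizedDeriv_jH]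
      have h4' : E₄ τ ≠ 0 := fun e ↦ ha0 (by rw [← hj, Genus.jH, e]; simp)
      have h6' : E₆ τ ≠ 0 := fun e ↦ ha1 (by
        have := Genus.jH_sub_1728 τ
        rw [e, hj] at this
        simpa [sub_eq_zero] using this)
      simp [h4', h6', discriminant_ne_zero τ]
    have hU : {z : ℂ | 0 < z.im} ∈ 𝓝 (τ : ℂ) := isOpen_upperHalfPlaneSet.mem_nhds τ.im_pos
    have hΔd := (UpperHalfPlane.mdifferentiable_iff.mp
      ModFun.mdifferentiable_discriminant).differentiableAt hU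
    have hjd := (UpperHalfPlane.mdifferentiable_iff.mp Genus.mdifferentiable_jH).differentiableAt hU
    have e : p ∘ ofComplex = fun z ↦ ((Δ : ℍ → ℂ) ∘ ofComplex) z *
        ((Genus.jH ∘ ofComplex) z - a) := by rw [hpj]; rfl
    rw [e, deriv_fun_mul hΔd (hjd.sub_const a), deriv_sub_const]
    simp only [Function.comp_apply, ofComplex_apply, hj, sub_self, mul_zero, zero_add]
    exact mul_ne_zero (discriminant_ne_zero τ) hne
  · have := (tendsto_E₄.pow 3).sub
      ((discriminant_isZeroAtImInfty : Tendsto Δ atImInfty (𝓝 0)).const_smul a)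
    simp only [one_pow, smul_zero, sub_zero] at this
    exact this
  · rw [hpj]; simp [ha]
  · refine exists_smul_eq_of_jH_eq ?_
    rw [hpj] at hτ
    have : Genus.jH τ - a = 0 := (mul_eq_zero.mp hτ).resolve_left (discriminant_ne_zero τ)
    rw [sub_eq_zero] at this
    rw [this, ha]

end Fermat.Agent.Poincare
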