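import Fermat.Agent.Poincare.LevelOne

/-!
# Expansion at the cusps of vector valued forms

Fourier coordinates along the `T`-orbits.
-/

set_option autoImplicit false

noncomputable section

open UpperHalfPlane hiding I
open Filter Topology Complex Function
open scoped MatrixGroups Manifold Real

namespace Fermat.Agent.Poincare

/-- `exp (2 π i r z)`. -/
def expU (r : ℝ) (z : ℂ) : ℂ := Complex.exp (2 * π * Complex.I * r * z)

lemma expU_add_right (r : ℝ) (z w : ℂ) : expU r (z + w) = expU r z * expU r w := by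
  rw [expU, expU, expU, ← Complex.exp_add]; ring_nf

lemma expU_add_left (r s : ℝ) (z : ℂ) : expU (r + s) z = expU r z * expU s z := by
  rw [expU, expU, expU, ← Complex.exp_add]; push_cast; ring_nf

lemma norm_expU (r : ℝ) (z : ℂ) : ‖expU r z‖ = Real.exp (-2 * π * r * z.im) := by
  rw [expU, Complex.norm_exp]
  congr 1
  simp [Complex.mul_re, Complex.mul_im]

lemma expU_ne_zero (r : ℝ) (z : ℂ) : expU r z ≠ 0 := Complex.exp_ne_zero _

lemma expU_zero (z : ℂ) : expU 0 z = 1 := by simp [expU]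

lemma expU_int_one (m : ℤ) : expU m 1 = 1 := by
  have := Complex.exp_int_mul_two_pi_mul_I m
  simp only [expU, mul_one, Complex.ofReal_intCast]
  rw [← this]; ring_nf

lemma mdifferentiable_expU (r : ℝ) : MDiff (fun τ : ℍ ↦ expU r (τ : ℂ)) := by
  rw [UpperHalfPlane.mdifferentiable_iff]
  refine DifferentiableOn.congr (f := expU r) ?_ fun z hz ↦ ?_
  · unfold expU; fun_prop
  · simp [ofComplex_apply_of_im_pos (show 0 < z.im from hz)]

lemma tendsto_im_atImInfty : Tendsto (fun τ : ℍ ↦ τ.im) atImInfty atTop := tendsto_comap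

/-- `exp (2 π i r τ)` is bounded at `i∞` for `r ≥ 0`. -/
lemma isBounded_expU {r : ℝ} (hr : 0 ≤ r) : IsBoundedAtImInfty (fun τ : ℍ ↦ expU r (τ : ℂ)) := by
  refine Asymptotics.isBigO_of_le _ fun τ ↦ ?_
  rw [norm_expU]
  simp only [Pi.one_apply, norm_one, Real.exp_le_one_iff, UpperHalfPlane.coe_im]
  have := mul_nonneg (mul_nonneg Real.pi_pos.le hr) τ.im_pos.le
  linarith

lemma tendsto_expU {r : ℝ} (hr : 0 < r) :
    Tendsto (fun τ : ℍ ↦ expU r (τ : ℂ)) atImInfty (𝓝 0) := by
  rw [tendsto_zero_iff_norm_tendsto_zero]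
  simp only [norm_expU, UpperHalfPlane.coe_im]
  refine Real.tendsto_exp_atBot.comp ?_
  exact tendsto_im_atImInfty.const_mul_atTop_of_neg (by have := Real.pi_pos; nlinarith)

lemma periodic_comp_of_forall {f : ℍ → ℂ} (h : ∀ τ : ℍ, f ((1 : ℝ) +ᵥ τ) = f τ) :
    Periodic (f ∘ ofComplex) (1 : ℝ) := by
  intro w
  by_cases hw : 0 < w.im
  · have hw' : 0 < (w + (1 : ℝ)).im := by simpa using hw
    simp only [comp_apply, ofComplex_apply_of_im_pos hw, ofComplex_apply_of_im_pos hw']
    rw [← h ⟨w, hw⟩]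
    congr 1
    exact UpperHalfPlane.ext (by simp [add_comm])
  · rw [not_lt] at hw
    simp only [comp_apply]
    rw [ofComplex_apply_of_im_nonpos hw, ofComplex_apply_of_im_nonpos (by simpa using hw)]

lemma expU_one_periodic (τ : ℍ) : expU 1 (((1 : ℝ) +ᵥ τ : ℍ) : ℂ) = expU 1 (τ : ℂ) := by
  rw [UpperHalfPlane.coe_vadd, add_comm, expU_add_right]
  have := expU_int_one 1
  simp only [Int.cast_one] at this
  simp [this]

/-- A periodic function vanishing at `i∞` is `O(q)`. -/
lemma isBigO_of_periodic_of_tendsto {f : ℍ → ℂ} (hf : MDiff f)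
    (hp : ∀ τ : ℍ, f ((1 : ℝ) +ᵥ τ) = f τ) (h0 : IsZeroAtImInfty f) :
    f =O[atImInfty] fun τ : ℍ ↦ expU 1 (τ : ℂ) := by
  refine (h0.exp_decay_atImInfty one_pos (periodic_comp_of_forall hp) ?_ ?_).trans ?_
  · exact hf
  · exact Filter.ZeroAtFilter.boundedAtFilter h0
  · exact Asymptotics.isBigO_of_le _ fun τ ↦ by rw [norm_expU]; simp

/-- A periodic holomorphic function which is `o(1/q)` at `i∞` has a limit there. -/
lemma exists_tendsto_of_periodic {f : ℍ → ℂ} (hf : MDiff f)
    (hp : ∀ τ : ℍ, f ((1 : ℝ) +ᵥ τ) = f τ)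
    (h0 : Tendsto (fun τ : ℍ ↦ expU 1 (τ : ℂ) * f τ) atImInfty (𝓝 0)) :
    ∃ c, Tendsto f atImInfty (𝓝 c) := by
  have hO := isBigO_of_periodic_of_tendsto (f := fun τ ↦ expU 1 (τ : ℂ) * f τ)
    ((mdifferentiable_expU 1).mul hf) (fun τ ↦ by rw [expU_one_periodic, hp]) h0
  have hb : IsBoundedAtImInfty f := by
    obtain ⟨C, hC⟩ := hO.bound
    refine Asymptotics.IsBigO.of_bound C ?_
    filter_upwards [hC] with τ hτ
    rw [norm_mul, mul_comm C] at hτ
    simpa using le_of_mul_le_mul_left hτ (norm_pos_iff.mpr (expU_ne_zero _ _))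
  exact ⟨_, Genus.tendsto_coeff_zero (periodic_comp_of_forall hp) hf hb⟩

lemma tendsto_discriminant_div_q :
    Tendsto (fun τ : ℍ ↦ ModularForm.discriminant τ / expU 1 (τ : ℂ)) atImInfty (𝓝 1) := by
  refine ModularForm.tendsto_atImInfty_tprod_one_sub_eta_q_pow.congr fun τ ↦ ?_
  have e : expU 1 (τ : ℂ) = Periodic.qParam 1 (τ : ℂ) := by simp [expU, Periodic.qParam]
  rw [ModularForm.discriminant_eq_q_prod, e, mul_div_cancel_left₀ _ (Periodic.qParam_ne_zero _)]

lemma q_isBigO_discriminant :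
    (fun τ : ℍ ↦ expU 1 (τ : ℂ)) =O[atImInfty] ModularForm.discriminant := by
  refine Asymptotics.IsBigO.trans (Asymptotics.isBigO_of_le _ fun τ ↦ ?_)
    ModularForm.exp_isBigO_discriminant
  rw [norm_expU]; simp

/-! ### The translation on `X` -/

variable {X : Type} [MulAction SL(2, ℤ) X]

/-- The permutation of the components induced by `τ ↦ τ + 1`. -/
def shift (x : X) : X := ModularGroup.T⁻¹ • x

lemma IsVForm.apply_vadd {cusp : Bool} {k : ℤ} {F : X → ℍ → ℂ} (hF : IsVForm cusp k F) (x : X)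
    (τ : ℍ) : F x ((1 : ℝ) +ᵥ τ) = F (shift x) τ := by
  rw [← UpperHalfPlane.modular_T_smul, hF.apply_smul,
    show denom ModularGroup.T (τ : ℂ) = 1 by
      rw [ModularGroup.denom_apply]; simp [ModularGroup.coe_T],
    one_zpow, mul_one, shift]

/-- The period of a component under translation. -/
def cuspWidth (x : X) : ℕ := minimalPeriod (shift : X → X) x

variable [Fintype X]

/-- Cusp widths are positive. -/
lemma cuspWidth_pos (x : X) : 0 < cuspWidth x :=
  minimalPeriod_pos_of_mem_periodicPts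
    ((MulAction.injective (ModularGroup.T⁻¹ : SL(2, ℤ))).mem_periodicPts x)

variable (X) in
/-- Lying on one orbit of the translation. -/
def cuspSetoid : Setoid X where
  r x y := ∃ j : ℕ, (shift : X → X)^[j] x = y
  iseqv :=
    { refl := fun _ ↦ ⟨0, rfl⟩
      symm := by
        rintro x _ ⟨j, rfl⟩
        refine ⟨j * (cuspWidth x - 1), ?_⟩
        rw [← iterate_add_apply, show j * (cuspWidth x - 1) + j = j * cuspWidth x by
          rw [← Nat.mul_succ, Nat.succ_eq_add_one, Nat.sub_add_cancel (cuspWidth_pos x)]]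
        exact (isPeriodicPt_minimalPeriod _ x).const_mul j
      trans := by
        rintro x y z ⟨i, rfl⟩ ⟨j, rfl⟩
        exact ⟨j + i, iterate_add_apply _ j i x⟩ }

variable (X) in
/-- The orbits of translation on `X`, i.e. the cusps. -/
def CuspSet : Type := Quotient (cuspSetoid X)

instance : Fintype (CuspSet X) := by
  classical exact Quotient.fintype (cuspSetoid X)

/-- A representative of a cusp. -/
def cuspRep (o : CuspSet X) : X := Quotient.out (s := cuspSetoid X) o

/-- The parametrisation of `X` by cusps and residues modulo their widths. -/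
def cuspParam (p : Σ o : CuspSet X, Fin (cuspWidth (cuspRep o))) : X :=
  (shift : X → X)^[(p.2 : ℕ)] (cuspRep p.1)

lemma cuspParam_bijective : Function.Bijective (cuspParam (X := X)) := by
  constructor
  · rintro ⟨o, i⟩ ⟨o', i'⟩ h
    have hoo : o = o' := by
      have h1 : (cuspSetoid X).r (cuspRep o) (cuspRep o') :=
        (cuspSetoid X).iseqv.trans ⟨i, rfl⟩ ((cuspSetoid X).iseqv.symm ⟨i', h.symm⟩)
      have h2 := Quotient.sound (s := cuspSetoid X) h1
      exact ((Quotient.out_eq (s := cuspSetoid X) o).symm.trans h2).trans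
        (Quotient.out_eq (s := cuspSetoid X) o')
    subst hoo
    exact Sigma.ext rfl (heq_of_eq (Fin.ext
      (iterate_injOn_Iio_minimalPeriod i.isLt i'.isLt h)))
  · intro x
    set o : CuspSet X := Quotient.mk (cuspSetoid X) x
    obtain ⟨j, hj⟩ := Quotient.exact (s := cuspSetoid X) (Quotient.out_eq o)
    exact ⟨⟨o, ⟨j % cuspWidth (cuspRep o), Nat.mod_lt _ (cuspWidth_pos _)⟩⟩,
      iterate_mod_minimalPeriod_eq.trans hj⟩

/-- `X` is parametrised by cusps and residues modulo widths. -/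
def cuspEquiv : (Σ o : CuspSet X, Fin (cuspWidth (cuspRep o))) ≃ X :=
  Equiv.ofBijective _ cuspParam_bijective

/-- The offset `δ = 1` for cusp forms, `0` otherwise. -/
def offset (cusp : Bool) : ℕ := cond cusp 1 0

/-- The exponent attached to a component. -/
def cuspExp (cusp : Bool) (x : X) : ℝ :=
  (fun p : Σ o : CuspSet X, Fin (cuspWidth (cuspRep o)) ↦
    ((offset cusp + (p.2 : ℕ) : ℕ) : ℝ) / (cuspWidth (cuspRep p.1) : ℕ)) (cuspEquiv.symm x)

lemma cuspExp_apply (cusp : Bool) (o : CuspSet X) (t : Fin (cuspWidth (cuspRep o))) :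
    cuspExp cusp (cuspEquiv ⟨o, t⟩)
      = ((offset cusp + (t : ℕ) : ℕ) : ℝ) / (cuspWidth (cuspRep o) : ℕ) := by
  rw [cuspExp, Equiv.symm_apply_apply]

/-- The Fourier coordinate attached to a component. -/
def cuspCoord (cusp : Bool) (F : X → ℍ → ℂ) (x : X) (τ : ℍ) : ℂ :=
  (fun o : CuspSet X ↦ ((cuspWidth (cuspRep o) : ℕ) : ℂ)⁻¹ *
    ∑ j ∈ Finset.range (cuspWidth (cuspRep o)),
      expU (-cuspExp cusp x) ((τ : ℂ) + j) *
        F ((shift : X → X)^[j] (cuspRep o)) τ) (cuspEquiv.symm x).1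

variable {cusp : Bool} {k : ℤ} {F : X → ℍ → ℂ}

lemma cuspExp_nonneg (x : X) : 0 ≤ cuspExp cusp x := by unfold cuspExp; positivity

lemma cuspExp_lt_one (hc : cusp = false) (x : X) : cuspExp cusp x < 1 := by
  subst hc
  have h := cuspWidth_pos (cuspRep (cuspEquiv.symm x).1)
  rw [cuspExp, div_lt_one (by exact_mod_cast h)]
  simp [offset]

lemma cuspExp_le_one (x : X) : cuspExp cusp x ≤ 1 := by
  have h := cuspWidth_pos (cuspRep (cuspEquiv.symm x).1)
  rw [cuspExp, div_le_one (by exact_mod_cast h)]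
  have := (cuspEquiv.symm x).2.isLt
  cases cusp <;> simp [offset]
  norm_cast
  omega

lemma cuspExp_pos (hc : cusp = true) (x : X) : 0 < cuspExp cusp x := by
  subst hc
  have := cuspWidth_pos (cuspRep (cuspEquiv.symm x).1)
  unfold cuspExp offset
  simp only [cond_true]
  positivity

lemma mdifferentiable_finset_sum {ι : Type*} (s : Finset ι) {f : ι → ℍ → ℂ}
    (h : ∀ i, MDiff (f i)) : MDiff (fun τ ↦ ∑ i ∈ s, f i τ) := by
  classical
  induction s using Finset.induction_on with
  | empty => simpa using mdifferentiable_const (c := (0 : ℂ))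
  | insert a s ha ih => simp only [Finset.sum_insert ha]; exact (h a).add ih

lemma mdifferentiable_cuspCoord (hF : ∀ x, MDiff (F x)) (x : X) :
    MDiff (cuspCoord cusp F x) := by
  refine mdifferentiable_const.mul (mdifferentiable_finset_sum _ fun j ↦ ?_)
  refine MDifferentiable.mul ?_ (hF _)
  simp only [expU_add_right]
  exact (mdifferentiable_expU _).mul mdifferentiable_const

lemma cuspCoord_periodic (hF : IsVForm cusp k F) (x : X) (τ : ℍ) :
    cuspCoord cusp F x ((1 : ℝ) +ᵥ τ) = cuspCoord cusp F x τ := by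
  simp only [cuspCoord]
  congr 1
  set b := cuspRep (cuspEquiv.symm x).1
  set h := cuspWidth b with hh
  set φ : ℕ → ℂ := fun j ↦ expU (-cuspExp cusp x) ((τ : ℂ) + j) * F ((shift : X → X)^[j] b) τ
    with hφ
  have e : ∀ j : ℕ, expU (-cuspExp cusp x) (((1 : ℝ) +ᵥ τ : ℍ) + (j : ℂ)) *
      F ((shift : X → X)^[j] b) ((1 : ℝ) +ᵥ τ) = φ (j + 1) := fun j ↦ by
    simp only [hφ, hF.apply_vadd, iterate_succ_apply', UpperHalfPlane.coe_vadd]
    congr 1
    push_cast
    ring_nf
  simp only [e]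
  have hper : φ h = φ 0 := by
    have hiter : (shift : X → X)^[h] b = b := iterate_minimalPeriod
    simp only [hφ, hiter, iterate_zero_apply, Nat.cast_zero, add_zero]
    rw [expU_add_right]
    congr 1
    have : expU (-cuspExp cusp x) ((h : ℕ) : ℂ) = 1 := by
      have hb : (0 : ℝ) < (h : ℕ) := by exact_mod_cast cuspWidth_pos b
      rw [← expU_int_one (-((offset cusp + ((cuspEquiv.symm x).2 : ℕ) : ℕ) : ℤ))]
      simp only [expU, mul_one]
      congr 1
      rw [mul_assoc, ← Complex.ofReal_natCast h, ← Complex.ofReal_mul]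
      congr 2
      simp only [cuspExp]
      push_cast
      rw [neg_mul, div_mul_cancel₀ _ hb.ne']
    rw [this, mul_one]
  have h1 := Finset.sum_range_succ' φ h
  rw [Finset.sum_range_succ, hper] at h1
  linear_combination -h1

lemma exists_tendsto_cuspCoord (hF : IsVForm cusp k F) (x : X) :
    ∃ c, Tendsto (cuspCoord cusp F x) atImInfty (𝓝 c) := by
  refine exists_tendsto_of_periodic (mdifferentiable_cuspCoord hF.holo x)
    (cuspCoord_periodic hF x) ?_
  have key : ∀ j : ℕ, Tendsto (fun τ : ℍ ↦ expU 1 (τ : ℂ) * (expU (-cuspExp cusp x) ((τ : ℂ) + j)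
      * F ((shift : X → X)^[j] (cuspRep (cuspEquiv.symm x).1)) τ)) atImInfty (𝓝 0) := by
    intro j
    have e : (fun τ : ℍ ↦ expU 1 (τ : ℂ) * (expU (-cuspExp cusp x) ((τ : ℂ) + j)
        * F ((shift : X → X)^[j] (cuspRep (cuspEquiv.symm x).1)) τ))
        = (fun τ : ℍ ↦ expU (-cuspExp cusp x) j * (expU (1 + -cuspExp cusp x) (τ : ℂ)
          * F ((shift : X → X)^[j] (cuspRep (cuspEquiv.symm x).1)) τ)) := by
      funext τ; rw [expU_add_right, expU_add_left]; ring
    rw [e, show (0 : ℂ) = expU (-cuspExp cusp x) j * 0 by simp]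
    refine Tendsto.const_mul _ ?_
    cases cusp
    · refine Filter.Tendsto.congr (fun τ : ℍ ↦ mul_comm _ _) ?_
      exact Growth.mul_bounded (cusp := true) (hF.growth _)
        (tendsto_expU (by linarith [cuspExp_lt_one (cusp := false) rfl x]))
    · exact Growth.mul_bounded (cusp := true)
        (isBounded_expU (by linarith [cuspExp_le_one (cusp := true) x])) (hF.growth _)
  have := (tendsto_finsetSum (Finset.range (cuspWidth (cuspRep (cuspEquiv.symm x).1)))
    fun j _ ↦ key j).const_mul ((cuspWidth (cuspRep (cuspEquiv.symm x).1) : ℕ) : ℂ)⁻¹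
  simp only [Finset.sum_const_zero, mul_zero] at this
  refine this.congr fun τ ↦ ?_
  simp only [cuspCoord, ← Finset.mul_sum]
  ring

/-- Fourier inversion. -/
lemma sum_cuspCoord (o : CuspSet X) {j : ℕ} (hj : j < cuspWidth (cuspRep o))
    (F : X → ℍ → ℂ) (τ : ℍ) :
    F ((shift : X → X)^[j] (cuspRep o)) τ = ∑ t : Fin (cuspWidth (cuspRep o)),
      expU (cuspExp cusp (cuspEquiv ⟨o, t⟩)) ((τ : ℂ) + j) * cuspCoord cusp F
          (cuspEquiv ⟨o, t⟩) τ := by
  classical
  set h := cuspWidth (cuspRep o) with hh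
  have hpos : 0 < h := cuspWidth_pos _
  have hexp : ∀ (t : Fin h), cuspExp cusp (cuspEquiv ⟨o, t⟩)
      = ((offset cusp + (t : ℕ) : ℕ) : ℝ) / (h : ℕ) := fun t ↦ cuspExp_apply cusp o t
  have hcoord : ∀ t : Fin h, cuspCoord cusp F (cuspEquiv ⟨o, t⟩) τ = (h : ℂ)⁻¹ *
      ∑ i ∈ Finset.range h, expU (-cuspExp cusp (cuspEquiv ⟨o, t⟩)) ((τ : ℂ) + i) *
        F ((shift : X → X)^[i] (cuspRep o)) τ := fun t ↦ by
    rw [cuspCoord, Equiv.symm_apply_apply]
  -- Fourier inversion: only the term `i = j` survives the sum over `t`.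
  simp only [hcoord, Finset.mul_sum]
  rw [Finset.sum_comm]
  rw [Finset.sum_eq_single j]
  · have e : ∀ r : ℝ, expU r ((τ : ℂ) + j) * expU (-r) ((τ : ℂ) + j) = 1 := fun r ↦ by
      rw [← expU_add_left, add_neg_cancel, expU_zero]
    rw [Finset.sum_congr rfl (g := fun _ : Fin h ↦ (h : ℂ)⁻¹ *
      F ((shift : X → X)^[j] (cuspRep o)) τ)
      fun (t : Fin h) _ ↦ by
        have e' := e (cuspExp cusp (cuspEquiv ⟨o, t⟩))
        linear_combination ((h : ℂ)⁻¹ * F ((shift : X → X)^[j] (cuspRep o)) τ) * e']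
    simp only [Finset.sum_const, Finset.card_univ, Fintype.card_fin, nsmul_eq_mul, ← mul_assoc]
    rw [mul_inv_cancel₀ (by exact_mod_cast hpos.ne'), one_mul]
  · intro i hi hij
    rw [Finset.mem_range] at hi
    set ω : ℂ := Complex.exp (2 * π * Complex.I * (((j : ℤ) - i : ℤ) : ℂ) / h) with hω
    have hterm : ∀ t : Fin h, expU (cuspExp cusp (cuspEquiv ⟨o, t⟩)) ((τ : ℂ) + j) *
        expU (-cuspExp cusp (cuspEquiv ⟨o, t⟩)) ((τ : ℂ) + i) = ω ^ (offset cusp + (t : ℕ)) := by
      intro t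
      rw [hexp, expU, expU, ← Complex.exp_add, hω, ← Complex.exp_nat_mul]
      congr 1
      push_cast
      field_simp
      ring
    rw [Finset.sum_congr rfl (g := fun t : Fin h ↦ ((h : ℂ)⁻¹ * F ((shift : X → X)^[i]
      (cuspRep o)) τ * ω ^ offset cusp) * ω ^ (t : ℕ)) fun t _ ↦ by
        rw [mul_assoc _ (ω ^ _), ← pow_add, ← hterm t]; ring]
    rw [← Finset.mul_sum, Fin.sum_univ_eq_sum_range (fun t ↦ ω ^ t) h]
    have hω1 : ω ≠ 1 := by
      rw [hω, Ne, Complex.exp_eq_one_iff]
      rintro ⟨m, hm⟩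
      have h2 : (((j : ℤ) - i : ℤ) : ℂ) = ((m * h : ℤ) : ℂ) := by
        have hπ : (2 * π * Complex.I : ℂ) ≠ 0 := Complex.two_pi_I_ne_zero
        rw [div_eq_iff (by exact_mod_cast hpos.ne')] at hm
        refine mul_left_cancel₀ hπ (hm.trans ?_)
        push_cast; ring
      have h3 : (j : ℤ) - i = m * h := by exact_mod_cast h2
      rcases lt_trichotomy m 0 with hm | rfl | hm
      · have : m * h ≤ -1 * (h : ℤ) := mul_le_mul_of_nonneg_right (by omega) (by omega)
        omega
      · omega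
      · have : 1 * (h : ℤ) ≤ m * h := mul_le_mul_of_nonneg_right (by omega) (by omega)
        omega
    have hωh : ω ^ h = 1 := by
      rw [hω, ← Complex.exp_nat_mul, ← Complex.exp_int_mul_two_pi_mul_I ((j : ℤ) - i)]
      congr 1
      rw [mul_div_cancel₀ _ (by exact_mod_cast hpos.ne')]
      ring
    rw [geom_sum_eq hω1, hωh, sub_self, zero_div, mul_zero]
  · intro hj'; exact absurd (Finset.mem_range.mpr hj) hj'

lemma cuspCoord_mul (p : ℍ → ℂ) (F : X → ℍ → ℂ) (x : X) :
    cuspCoord cusp (fun y ↦ p * F y) x = p * cuspCoord cusp F x := by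
  funext τ
  simp only [cuspCoord, Pi.mul_apply, Finset.mul_sum]
  exact Finset.sum_congr rfl fun j _ ↦ by ring

lemma cuspCoord_sum {ι : Type*} (s : Finset ι) (F : ι → X → ℍ → ℂ) (x : X) :
    cuspCoord cusp (∑ i ∈ s, F i) x = ∑ i ∈ s, cuspCoord cusp (F i) x := by
  funext τ
  simp only [cuspCoord, Finset.sum_apply, Finset.mul_sum]
  rw [Finset.sum_comm]

/-- If all Fourier coordinates vanish at `i∞`, the form is divisible by `Δ`. -/
theorem exists_eq_discriminant_mul (hF : IsVForm cusp k F)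
    (h0 : ∀ x, Tendsto (cuspCoord cusp F x) atImInfty (𝓝 0)) :
    ∃ H : X → ℍ → ℂ, IsVForm cusp (k - 12) H ∧ ∀ x, F x = ModularForm.discriminant * H x := by
  refine ⟨fun x ↦ F x / ModularForm.discriminant, ⟨fun x ↦ ?_, fun g x ↦ ?_, fun x ↦ ?_⟩,
    fun x ↦ funext fun τ ↦ by
      simp only [Pi.mul_apply, Pi.div_apply]
      rw [mul_div_cancel₀ _ (ModularForm.discriminant_ne_zero τ)]⟩
  · exact (hF.holo x).div isLevelOne_discriminant.holo ModularForm.discriminant_ne_zero
  · rw [ModularForm.div_slash_SL2, hF.slash, isLevelOne_discriminant.slash]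
  · obtain ⟨⟨o, t⟩, rfl⟩ := cuspParam_bijective.2 x
    have hb : ∀ y, IsBoundedAtImInfty (cuspCoord cusp F y / ModularForm.discriminant) := fun y ↦ by
      have h1 := (isBigO_of_periodic_of_tendsto (mdifferentiable_cuspCoord hF.holo y)
        (cuspCoord_periodic hF y) (h0 y)).trans q_isBigO_discriminant
      exact (Asymptotics.div_isBoundedUnder_of_isBigO h1).isBigO_one ℝ
    have e : F (cuspParam ⟨o, t⟩) / ModularForm.discriminant =
        ∑ s : Fin (cuspWidth (cuspRep o)), (expU (cuspExp cusp (cuspEquiv ⟨o, s⟩)) (t : ℕ)) •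
          ((cuspCoord cusp F (cuspEquiv ⟨o, s⟩) / ModularForm.discriminant) *
            fun τ : ℍ ↦ expU (cuspExp cusp (cuspEquiv ⟨o, s⟩)) (τ : ℂ)) := by
      funext τ
      rw [Pi.div_apply, cuspParam, sum_cuspCoord (cusp := cusp) o t.isLt F τ, Finset.sum_div,
        Finset.sum_apply]
      refine Finset.sum_congr rfl fun s _ ↦ ?_
      simp only [expU_add_right, Pi.smul_apply, Pi.mul_apply, Pi.div_apply, smul_eq_mul]
      ring
    show Growth cusp (F (cuspParam ⟨o, t⟩) / ModularForm.discriminant)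
    rw [e]
    refine Finset.sum_induction _ _ (fun _ _ ↦ Growth.add) (Growth.zero _) fun s _ ↦
      Growth.smul _ (Growth.mul_bounded (hb _) ?_)
    cases cusp
    · exact isBounded_expU (cuspExp_nonneg _)
    · exact tendsto_expU (cuspExp_pos rfl _)

end Fermat.Agent.Poincare
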