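import Fermat.Agent.Poincare.WeightSum

/-!
# The dimension in weight two

Duality of the weights of a basis and the genus formula for the dimension of weight two vector
valued cusp forms (`finrank_two_eq`).
-/

set_option autoImplicit false

noncomputable section

open UpperHalfPlane hiding I
open Filter Complex ModularForm Function
open scoped MatrixGroups

namespace Fermat.Agent.Poincare

variable {X : Type} [MulAction SL(2, ℤ) X] [Fintype X]

/-- An eigenbasis of a translation determines its number of fixed points. -/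
lemma sum_eigenvalues (g : SL(2, ℤ)) {v : X → X → ℂ} {l : X → ℂ} (hv : LinearIndependent ℂ v)
    (he : ∀ i, LinearMap.funLeft ℂ ℂ (g⁻¹ • ·) (v i) = l i • v i) :
    ∑ i, l i = (Nat.card {x : X // g • x = x} : ℂ) := by
  classical
  rcases isEmpty_or_nonempty X with hXe | hXn
  · simp
  set b := basisOfLinearIndependentOfCardEqFinrank hv (by simp) with hb
  have hbv : ∀ i, b i = v i := fun i ↦
    congrFun (coe_basisOfLinearIndependentOfCardEqFinrank hv (by simp)) i
  set t := LinearMap.funLeft ℂ ℂ (fun x : X => g⁻¹ • x)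
  have h1 : LinearMap.trace ℂ (X → ℂ) t = ∑ i, l i := by
    rw [LinearMap.trace_eq_matrix_trace ℂ b, Matrix.trace]
    refine Finset.sum_congr rfl fun i _ ↦ ?_
    rw [Matrix.diag, LinearMap.toMatrix_apply, hbv, he, ← hbv, map_smul, Module.Basis.repr_self]
    simp
  have h2 : LinearMap.trace ℂ (X → ℂ) t = (Nat.card {x : X // g • x = x} : ℂ) := by
    rw [LinearMap.trace_eq_matrix_trace ℂ (Pi.basisFun ℂ X), Matrix.trace, Nat.card_eq_fintype_card,
      Fintype.card_subtype, Finset.natCast_card_filter]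
    refine Finset.sum_congr rfl fun x _ ↦ ?_
    simp only [Matrix.diag, LinearMap.toMatrix_apply, Pi.basisFun_repr, Pi.basisFun_apply]
    show (Pi.single x (1 : ℂ) : X → ℂ) (g⁻¹ • x) = _
    rw [Pi.single_apply]
    exact if_congr inv_smul_eq_iff.eq.to_iff rfl rfl |>.trans (if_congr eq_comm rfl rfl)
  rw [← h1, h2]

namespace FormBasis

variable (hX : ∀ x : X, (-1 : SL(2, ℤ)) • x = x)

theorem trace_rho {cusp : Bool} (B : FormBasis X cusp X) :
    ∑ i, rotFactor ^ (-B.wt i) =
      (Nat.card {x : X // (ModularGroup.S * ModularGroup.T) • x = x} : ℂ) :=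
  sum_eigenvalues _ B.indep fun i ↦ (B.isForm i).rotOp_rhoValue

include hX in
theorem trace_I {cusp : Bool} (B : FormBasis X cusp X) :
    ∑ i, Complex.I ^ (-B.wt i) = (Nat.card {x : X // ModularGroup.S • x = x} : ℂ) := by
  refine sum_eigenvalues _ (B.linearIndependent_value hX UpperHalfPlane.I) fun i ↦ funext fun x ↦ ?_
  have := (B.isForm i).apply_smul ModularGroup.S x UpperHalfPlane.I
  rw [Genus.S_smul_I, show denom ModularGroup.S (UpperHalfPlane.I : ℂ) = Complex.I from
    ModularGroup.denom_S _] at this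
  show B.form i (ModularGroup.S⁻¹ • x) UpperHalfPlane.I = _
  rw [Pi.smul_apply, smul_eq_mul, this, mul_comm (Complex.I ^ _), mul_assoc,
    ← zpow_add₀ Complex.I_ne_zero, add_neg_cancel, zpow_zero, mul_one]

variable (BM : FormBasis X false X) (BS : FormBasis X true X)

lemma sum_wt_add (hX : ∀ x : X, (-1 : SL(2, ℤ)) • x = x) :
    ∑ i, BS.wt i + ∑ i, BM.wt i = 12 * Fintype.card X := by
  rw [BS.sum_wt hX, BM.sum_wt hX, ← mul_add, ← Nat.cast_add, cuspDegree, cuspDegree,
    ← Finset.sum_add_distrib]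
  rw [Finset.sum_congr rfl (g := fun o : CuspSet X ↦ 2 * cuspWidth (cuspRep o)) fun o _ ↦ by
      have := cuspWidth_pos (cuspRep o)
      simp only [offset, cond_true, cond_false]; omega,
    ← Finset.mul_sum]
  have : ∑ o : CuspSet X, cuspWidth (cuspRep o) = Fintype.card X := by
    rw [← Fintype.card_congr (cuspEquiv (X := X)), Fintype.card_sigma]; simp
  rw [this]
  push_cast; ring

include hX in
theorem exists_duality : ∃ σ : Equiv.Perm X, ∀ i, BS.wt (σ i) + BM.wt i = 12 := by
  classical
  set P : X → X → ℍ → ℂ := fun i j ↦ ∑ x, BM.form j x * BS.form i x with hP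
  have hlev : ∀ i j, IsLevelOne (BM.wt j + BS.wt i) (P i j) := fun i j ↦
    ((BM.isForm j).mul (BS.isForm i)).sum_levelOne
  have hzero : ∀ i j, IsZeroAtImInfty (P i j) := fun i j ↦
    Finset.sum_induction _ (Growth true) (fun _ _ ↦ Growth.add) (Growth.zero _)
      fun x _ ↦ ((BM.isForm j).mul (BS.isForm i)).growth x
  set τ₀ := UpperHalfPlane.I
  have hdet : (Matrix.of fun i j ↦ P i j τ₀).det ≠ 0 := by
    have e : (Matrix.of fun i j ↦ P i j τ₀)
        = (BS.valueMatrix τ₀).transpose * BM.valueMatrix τ₀ := by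
      ext i j
      simp only [Matrix.of_apply, hP, Finset.sum_apply, Pi.mul_apply, Matrix.mul_apply,
        Matrix.transpose_apply, valueMatrix]
      exact Finset.sum_congr rfl fun x _ ↦ mul_comm _ _
    rw [e, Matrix.det_mul, Matrix.det_transpose]
    refine mul_ne_zero ?_ ?_
    · have := BS.valueDet_ne_zero hX τ₀
      simpa [valueDet] using this
    · have := BM.valueDet_ne_zero hX τ₀
      simpa [valueDet] using this
  rw [Matrix.det_apply] at hdet
  obtain ⟨σ, -, hσ⟩ := Finset.exists_ne_zero_of_sum_ne_zero hdet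
  have hne : ∀ i, P (σ i) i τ₀ ≠ 0 := fun i hi ↦ hσ (by
    rw [Finset.prod_eq_zero (Finset.mem_univ i) (by simpa using hi), smul_zero])
  have hge : ∀ i, 12 ≤ BS.wt (σ i) + BM.wt i := fun i ↦ by
    by_contra hlt
    obtain ⟨g, hg, he⟩ := (hlev (σ i) i).exists_eq_discriminant_mul (hzero (σ i) i)
    rw [hg.eq_zero_of_neg (by omega), mul_zero] at he
    exact hne i (congrFun he τ₀)
  refine ⟨σ, fun i ↦ ?_⟩
  have hsum : ∑ j, (BS.wt (σ j) + BM.wt j - 12) = 0 := by
    rw [Finset.sum_sub_distrib, Finset.sum_add_distrib, Equiv.sum_comp σ BS.wt,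
      sum_wt_add BM BS hX]
    simp; ring
  have := (Finset.sum_eq_zero_iff_of_nonneg fun j _ ↦ by have := hge j; omega).mp hsum i
    (Finset.mem_univ i)
  omega

theorem card_wt_zero [Nonempty X] [MulAction.IsPretransitive SL(2, ℤ) X] :
    Fintype.card {i : X // BM.wt i = 0} = 1 := by
  classical
  have hconst : ∀ i, BM.wt i = 0 → ∀ x y : X, ∀ τ,
      BM.form i x τ = BM.form i y UpperHalfPlane.I := by
    intro i hi x y τ
    have hF : IsVForm false 0 (BM.form i) := hi ▸ BM.isForm i
    obtain ⟨g, rfl⟩ := MulAction.exists_smul_eq SL(2, ℤ) x y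
    have h1 := hF.apply_smul g (g • x) UpperHalfPlane.I
    rw [inv_smul_smul, zpow_zero, mul_one, hF.eq_const] at h1
    rw [hF.eq_const x τ, h1]
  refine le_antisymm (Fintype.card_le_one_iff.mpr fun i j ↦ ?_) ?_
  · by_contra hij
    have hij' : (i : X) ≠ j := fun h ↦ hij (Subtype.ext h)
    obtain ⟨x₀⟩ := ‹Nonempty X›
    set a := BM.form i x₀ UpperHalfPlane.I
    set b := BM.form j x₀ UpperHalfPlane.I
    have h := BM.rho_value_eq_zero
      (c := fun k ↦ if k = i then b else if k = j then -a else 0) fun x ↦ by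
        rw [Finset.sum_eq_add (i : X) (j : X) hij' (fun k _ hk ↦ by simp [hk.1, hk.2])
          (by simp) (by simp)]
        simp only [if_true, if_neg hij'.symm]
        rw [hconst i i.2 x x₀, hconst j j.2 x x₀]
        ring
    have hb : b = 0 := by simpa using congrFun h (i : X)
    exact BM.form_ne_zero j (funext fun x ↦ funext fun τ ↦ by
      rw [hconst j j.2 x x₀ τ]; exact hb)
  · refine Fintype.card_pos_iff.mpr ?_
    by_contra hempty
    rw [not_nonempty_iff, isEmpty_subtype] at hempty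
    have h1 : IsVForm false 0 (fun _ : X ↦ (1 : ℍ → ℂ)) :=
      ⟨fun _ ↦ mdifferentiable_const, fun g _ ↦ is_invariant_one g,
        fun _ ↦ Filter.const_boundedAtFilter atImInfty (1 : ℂ)⟩
    have h2 := BM.spans 0 _ h1
    rw [show {i | BM.wt i ≤ 0} = (∅ : Set X) from Set.eq_empty_of_forall_notMem fun i hi ↦
      hempty i (le_antisymm hi (BM.nonneg i))] at h2
    simp only [Set.image_empty, Submodule.span_empty, Submodule.mem_bot] at h2
    simpa [rhoValue_apply] using congrFun h2 (Classical.arbitrary X)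

lemma wt_pos (i : X) : 0 < BS.wt i := by
  refine lt_of_le_of_ne (BS.nonneg i) fun h ↦ BS.form_ne_zero i (funext fun x ↦ funext fun τ ↦ ?_)
  have hF : IsVForm true 0 (BS.form i) := h ▸ BS.isForm i
  refine tendsto_nhds_unique (tendsto_const_nhds.congr fun σ ↦ ?_) (hF.growth x : IsZeroAtImInfty _)
  rw [hF.eq_const x τ, hF.eq_const x σ]

/-- The weight-two cusp forms are spanned by the basis forms of weight two. -/
theorem finrank_two (hX : ∀ x : X, (-1 : SL(2, ℤ)) • x = x) :
    Module.finrank ℂ (vSpace X true 2) = Fintype.card {i : X // BS.wt i = 2} := by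
  classical
  set L : ({i : X // BS.wt i = 2} → ℂ) →ₗ[ℂ] vSpace X true 2 :=
    Fintype.linearCombination ℂ fun i ↦ (⟨BS.form i, by
      have := BS.isForm i
      rw [i.2] at this
      exact this⟩ : vSpace X true 2) with hL
  have hLval : ∀ c x τ, (L c : X → ℍ → ℂ) x τ = ∑ i, c i * BS.form i x τ := fun c x τ ↦ by
    simp [hL, Fintype.linearCombination_apply, Finset.sum_apply]
  have hinj : Function.Injective L := by
    rw [← LinearMap.ker_eq_bot, LinearMap.ker_eq_bot']
    intro c hc
    have h := BS.rho_value_eq_zero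
      (c := fun j ↦ if h : BS.wt j = 2 then c ⟨j, h⟩ else 0) fun x ↦ by
        refine (Eq.trans ?_ (hLval c x UpperHalfPlane.ρ).symm).trans (by rw [hc]; rfl)
        rw [← Fintype.sum_subtype_add_sum_subtype (fun j ↦ BS.wt j = 2),
          add_eq_left.mpr (Finset.sum_eq_zero fun j _ ↦ by rw [dif_neg j.2, zero_mul])]
        exact Finset.sum_congr rfl fun j _ ↦ by rw [dif_pos j.2]
    funext i
    simpa [i.2] using congrFun h (i : X)
  have hsurj : Function.Surjective L := by
    rintro ⟨F, hF⟩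
    obtain ⟨Q, hQ, hFQ⟩ := BS.exists_repr hX (hF : IsVForm true 2 F)
    refine ⟨fun i ↦ Q i UpperHalfPlane.I, Subtype.ext (funext fun x ↦ funext fun τ ↦ ?_)⟩
    show (L _ : X → ℍ → ℂ) x τ = F x τ
    rw [hLval, hFQ x, Finset.sum_apply]
    simp only [Pi.mul_apply]
    rw [← Fintype.sum_subtype_add_sum_subtype (fun j ↦ BS.wt j = 2) (fun j ↦ Q j τ * BS.form j x τ),
      add_eq_left.mpr (Finset.sum_eq_zero fun j _ ↦ ?_)]
    · refine Finset.sum_congr rfl fun j _ ↦ ?_
      have h0 : IsLevelOne 0 (Q j) := by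
        have := hQ j
        rwa [j.2, sub_self] at this
      obtain ⟨c, hc⟩ := ModularFormClass.levelOne_weight_zero_const h0.toModularForm
      have hc' : ∀ σ, Q j σ = c := fun σ ↦ congrFun hc σ
      rw [hc', hc']
    · have h2 := (BS.even hX j).two_dvd
      have h3 := BS.wt_pos j
      have h4 : BS.wt j ≠ 2 := j.2
      rw [(hQ j).eq_zero_of_neg (by omega), Pi.zero_apply, zero_mul]
  rw [← LinearEquiv.finrank_eq (LinearEquiv.ofBijective L ⟨hinj, hsurj⟩),
    Module.finrank_fintype_fun_eq_card]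

/-- The genus formula for the dimension of weight two cusp forms. -/
theorem finrank_two_eq [Nonempty X] [MulAction.IsPretransitive SL(2, ℤ) X]
    (hX : ∀ x : X, (-1 : SL(2, ℤ)) • x = x) :
    (12 : ℤ) * Module.finrank ℂ (vSpace X true 2) = 12 + Fintype.card X
      - 3 * Nat.card {x : X // ModularGroup.S • x = x}
      - 4 * Nat.card {x : X // (ModularGroup.S * ModularGroup.T) • x = x}
      - 6 * Fintype.card (CuspSet X) := by
  classical
  obtain ⟨BM⟩ := exists_formBasis_equiv hX false
  obtain ⟨BS⟩ := exists_formBasis_equiv hX true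
  obtain ⟨σ, hσ⟩ := exists_duality hX BM BS
  -- The numbers `u b` of cusp basis forms of weight `b`, for even `b` from `2` to `12`, satisfy
  -- four relations: total, sum of weights and the traces at `i` and at `ρ`. Also `u 12 = 1`.
  set u : ℤ → ℕ := fun b ↦ Fintype.card {i : X // BS.wt i = b} with hu
  have hrange : ∀ i, BS.wt i ∈ ({2, 4, 6, 8, 10, 12} : Finset ℤ) := fun i ↦ by
    have h := hσ (σ.symm i)
    rw [Equiv.apply_symm_apply] at h
    have h1 := BM.nonneg (σ.symm i)
    have h2 := BS.wt_pos i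
    have h3 := (BS.even hX i).two_dvd
    simp only [Finset.mem_insert, Finset.mem_singleton]
    omega
  have key : ∀ (f : ℤ → ℂ), ∑ i, f (BS.wt i) = u 2 * f 2 + u 4 * f 4 + u 6 * f 6 + u 8 * f 8 +
      u 10 * f 10 + u 12 * f 12 := by
    intro f
    rw [← Finset.sum_fiberwise_of_maps_to (t := ({2, 4, 6, 8, 10, 12} : Finset ℤ))
      (g := fun i ↦ BS.wt i) (fun i _ ↦ hrange i) fun i ↦ f (BS.wt i)]
    have hb : ∀ b, ∑ i ∈ Finset.univ.filter (fun i ↦ BS.wt i = b), f (BS.wt i) = u b * f b := by
      intro b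
      rw [Finset.sum_congr rfl (g := fun _ ↦ f b) fun i hi ↦ by rw [(Finset.mem_filter.mp hi).2],
        Finset.sum_const, nsmul_eq_mul]
      simp only [hu, Fintype.card_subtype]
    simp only [hb]
    rw [Finset.sum_insert (by decide), Finset.sum_insert (by decide), Finset.sum_insert (by decide),
      Finset.sum_insert (by decide), Finset.sum_insert (by decide), Finset.sum_singleton]
    ring
  have htot := key 1
  simp only [Pi.one_apply, mul_one, Finset.sum_const, Finset.card_univ, nsmul_eq_mul] at htot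
  have h12 : u 12 = 1 := by
    rw [hu, ← card_wt_zero BM]
    exact Fintype.card_congr ((σ.subtypeEquiv fun i ↦ by have := hσ i; omega).symm)
  have hW := key (fun b ↦ (b : ℂ))
  rw [← Int.cast_sum, BS.sum_wt hX] at hW
  have hdeg : cuspDegree X true = Fintype.card X + Fintype.card (CuspSet X) := by
    rw [cuspDegree, Finset.sum_congr rfl (g := fun o : CuspSet X ↦ cuspWidth (cuspRep o) + 1)
      fun o _ ↦ by
        have := cuspWidth_pos (cuspRep o)
        simp only [offset, cond_true]; omega,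
      Finset.sum_add_distrib, Finset.sum_const, Finset.card_univ, smul_eq_mul, mul_one,
      ← Fintype.card_congr (cuspEquiv (X := X)), Fintype.card_sigma]
    simp
  rw [hdeg] at hW
  have hI := BS.trace_I hX
  rw [key (fun b ↦ Complex.I ^ (-b))] at hI
  have hI4 : ∀ m : ℤ, Complex.I ^ (4 * m) = 1 := fun m ↦ by
    rw [zpow_mul, show Complex.I ^ (4 : ℤ) = 1 by simp [zpow_ofNat], one_zpow]
  have hI2 : ∀ m : ℤ, Complex.I ^ (4 * m + 2) = -1 := fun m ↦ by
    rw [zpow_add₀ Complex.I_ne_zero, hI4, one_mul]; simp [zpow_ofNat]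
  rw [show (-2 : ℤ) = 4 * (-1) + 2 by norm_num, show (-6 : ℤ) = 4 * (-2) + 2 by norm_num,
    show (-10 : ℤ) = 4 * (-3) + 2 by norm_num, show (-4 : ℤ) = 4 * (-1) by norm_num,
    show (-8 : ℤ) = 4 * (-2) by norm_num, show (-12 : ℤ) = 4 * (-3) by norm_num] at hI
  simp only [hI4, hI2] at hI
  have hR := BS.trace_rho
  rw [key (fun b ↦ rotFactor ^ (-b))] at hR
  have h6 : ∀ m : ℤ, rotFactor ^ (6 * m) = 1 := fun m ↦ by
    rw [zpow_mul, zpow_ofNat, rotFactor_six, one_zpow]
  have h62 : ∀ m : ℤ, rotFactor ^ (6 * m + 2) = (UpperHalfPlane.ρ : ℂ) := fun m ↦ by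
    rw [zpow_add₀ rotFactor_ne_zero, h6, one_mul, zpow_ofNat, rotFactor_sq]
  have h64 : ∀ m : ℤ, rotFactor ^ (6 * m + 4) = -(UpperHalfPlane.ρ : ℂ) - 1 := fun m ↦ by
    rw [zpow_add₀ rotFactor_ne_zero, h6, one_mul, zpow_ofNat, pow_mul rotFactor 2 2, rotFactor_sq,
      UpperHalfPlane.ρ_sq]
  rw [show (-2 : ℤ) = 6 * (-1) + 4 by norm_num, show (-4 : ℤ) = 6 * (-1) + 2 by norm_num,
    show (-6 : ℤ) = 6 * (-1) by norm_num, show (-8 : ℤ) = 6 * (-2) + 4 by norm_num,
    show (-10 : ℤ) = 6 * (-2) + 2 by norm_num, show (-12 : ℤ) = 6 * (-2) by norm_num] at hR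
  simp only [h6, h62, h64] at hR
  have hre := congrArg Complex.re hR
  have him := congrArg Complex.im hR
  simp [UpperHalfPlane.ρ] at hre him
  rw [finrank_two BS hX]
  have e2 : Fintype.card {i : X // BS.wt i = 2} = u 2 := rfl
  rw [e2]
  have htot' := congrArg Complex.re htot
  have hW' := congrArg Complex.re hW
  have hI' := congrArg Complex.re hI
  simp [h12] at htot' hW' hI'
  have hs : (0 : ℝ) < Real.sqrt 3 / 2 := by positivity
  have him' : (u 4 : ℝ) + u 10 = u 2 + u 8 := by
    refine mul_left_cancel₀ hs.ne' ?_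
    linear_combination him
  have goalR : (12 : ℝ) * u 2 = 12 + Fintype.card X
      - 3 * Nat.card {x : X // ModularGroup.S • x = x}
      - 4 * Nat.card {x : X // (ModularGroup.S * ModularGroup.T) • x = x}
      - 6 * Fintype.card (CuspSet X) := by
    simp only [Nat.card_eq_fintype_card] at hre hI' ⊢
    have h12' : (u 12 : ℝ) = 1 := by exact_mod_cast h12
    linarith
  exact_mod_cast goalR

end FormBasis

end Fermat.Agent.Poincare
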