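import Fermat.Agent.Poincare.Basis

/-!
# Forms separating the components

If `-1` acts trivially on `X`, the values of vector valued forms at `2i`, whose stabiliser is `± 1`,
span all functions on `X`, so there is a basis indexed by `X` itself.
-/

set_option autoImplicit false

noncomputable section

open UpperHalfPlane hiding I
open Filter Topology Complex
open scoped MatrixGroups

namespace Fermat.Agent.Poincare

variable {X : Type} [MulAction SL(2, ℤ) X] {cusp : Bool}

/-- The coefficient function `g ↦ [g • x = x₀]`. -/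
def orbitCoeff (x₀ x : X) (g : SL(2, ℤ)) : ℂ :=
  open scoped Classical in if g • x = x₀ then 1 else 0

lemma norm_orbitCoeff_le (x₀ x : X) (g : SL(2, ℤ)) : ‖orbitCoeff x₀ x g‖ ≤ 1 := by
  unfold orbitCoeff; split <;> simp

lemma isVForm_poincare {k : ℕ} (hk : 9 ≤ k) (w : ℍ) (x₀ : X) :
    IsVForm cusp k (fun x ↦ poincare k w (orbitCoeff x₀ x)) :=
  ⟨fun x ↦ mdifferentiable_poincare (by omega) w (norm_orbitCoeff_le x₀ x),
    fun h x ↦ by
      rw [poincare_slash]
      congr 1
      funext g
      unfold orbitCoeff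
      rw [mul_smul],
    fun x ↦ Growth.of_isZeroAtImInfty (isZeroAtImInfty_poincare hk w (norm_orbitCoeff_le x₀ x))⟩

variable [Fintype X]

/-- Forms take all values at a point with trivial stabiliser. -/
theorem span_values_eq_top (hX : ∀ x : X, (-1 : SL(2, ℤ)) • x = x) :
    Submodule.span ℂ {v : X → ℂ | ∃ (k : ℤ) (F : X → ℍ → ℂ), IsVForm cusp k F ∧
      (fun x ↦ F x basePoint) = v} = ⊤ := by
  classical
  set M : ℕ → Matrix X X ℂ := fun k x₀ x ↦ poincare (2 * k) basePoint (orbitCoeff x₀ x) basePoint
  have hlim : Tendsto M atTop (𝓝 (Matrix.diagonal fun _ ↦ 2)) := by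
    refine tendsto_pi_nhds.mpr fun x₀ ↦ tendsto_pi_nhds.mpr fun x ↦ ?_
    convert tendsto_poincare_self basePoint stab_basePoint (norm_orbitCoeff_le x₀ x) using 2
    unfold orbitCoeff
    rw [one_smul, hX]
    by_cases h : x = x₀
    · subst h; simp [Matrix.diagonal]; norm_num
    · simp [Matrix.diagonal, h, Ne.symm h]
  have hdet : ∀ᶠ k in atTop, (M k).det ≠ 0 :=
    ((continuous_id.matrix_det.tendsto _).comp hlim).eventually_ne
      (by simp [Matrix.det_diagonal])
  obtain ⟨k, hk, hk5⟩ := (hdet.and (eventually_ge_atTop 5)).exists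
  have hli : LinearIndependent ℂ (M k).row :=
    Matrix.linearIndependent_rows_iff_isUnit.mpr ((Matrix.isUnit_iff_isUnit_det _).mpr hk.isUnit)
  rw [eq_top_iff, ← hli.span_eq_top_of_card_eq_finrank' (by simp)]
  refine Submodule.span_mono ?_
  rintro _ ⟨x₀, rfl⟩
  exact ⟨_, _, isVForm_poincare (k := 2 * k) (by omega) basePoint x₀, rfl⟩

/-- A form basis indexed by `X` itself. -/
theorem exists_formBasis_equiv (hX : ∀ x : X, (-1 : SL(2, ℤ)) • x = x) (cusp : Bool) :
    Nonempty (FormBasis X cusp X) := by
  classical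
  obtain ⟨n, ⟨B⟩⟩ := exists_formBasis (X := X) cusp
  have h1 := B.linearIndependent_value hX basePoint
  have h2 : Submodule.span ℂ (Set.range fun i x ↦ B.form i x basePoint) = ⊤ := by
    rw [eq_top_iff, ← span_values_eq_top (cusp := cusp) hX, Submodule.span_le]
    rintro _ ⟨k, F, hF, rfl⟩
    obtain ⟨Q, -, hQ⟩ := B.exists_repr hX hF
    have : (fun x ↦ F x basePoint) = ∑ i, Q i basePoint • fun x ↦ B.form i x basePoint := by
      funext x; simp [hQ x, Finset.sum_apply]
    rw [this]
    exact Submodule.sum_mem _ fun i _ ↦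
      Submodule.smul_mem _ _ (Submodule.subset_span ⟨i, rfl⟩)
  have hcard := Module.finrank_eq_card_basis (Module.Basis.mk h1 h2.ge)
  rw [Module.finrank_fintype_fun_eq_card] at hcard
  obtain ⟨e⟩ := Fintype.card_eq.mp hcard
  exact ⟨{ wt := fun x ↦ B.wt (e x)
           form := fun x ↦ B.form (e x)
           isForm := fun x ↦ B.isForm (e x)
           indep := B.indep.comp e e.injective
           spans := fun k F hF ↦ Submodule.span_mono (by
             rintro _ ⟨i, hi, rfl⟩
             exact ⟨e.symm i, by simpa using hi, by simp⟩) (B.spans k F hF) }⟩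

end Fermat.Agent.Poincare
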